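import Mathlib.FieldTheory.AlgebraicClosure
import Mathlib.FieldTheory.Galois.Infinite
import Mathlib.FieldTheory.IsAlgClosed.Basic
import Mathlib.RingTheory.AlgebraicIndependent.TranscendenceBasis
import Mathlib.Analysis.Complex.Polynomial.Basic

/-!
# Endomorphisms of the field of complex numbers fix only the rational numbers
-/

set_option autoImplicit false

noncomputable section

namespace Fermat.Agent.Integral

/-- Extension of an embedding into an algebraically closed field along an algebraic extension,
stated with ring homomorphisms. -/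
theorem exists_ringHom_extension {R S M : Type*} [CommRing R] [Field S] [Field M] [IsAlgClosed M]
    (i : R →+* S) (j : R →+* M) (hi : Function.Injective i) (hj : Function.Injective j)
    (halg : @Algebra.IsAlgebraic R S _ _ i.toAlgebra) : ∃ σ : S →+* M, σ.comp i = j := by
  let _ : Algebra R S := i.toAlgebra
  let _ : Algebra R M := j.toAlgebra
  have : IsDomain R := hi.isDomain i
  have : Algebra.IsAlgebraic R S := halg
  have : FaithfulSMul R S := (faithfulSMul_iff_algebraMap_injective R S).mpr hi
  have : FaithfulSMul R M := (faithfulSMul_iff_algebraMap_injective R M).mpr hj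
  obtain ⟨φ⟩ : Nonempty (S →ₐ[R] M) := ⟨IsAlgClosed.lift⟩
  exact ⟨φ.toRingHom, RingHom.ext fun r => φ.commutes r⟩

/-- An automorphism of the coefficient field and an automorphism of the polynomial ring on a
transcendence basis extend to the whole field. -/
theorem exists_ringHom_of_transcendenceBasis {K L : Type*} [Field K] [Field L] [IsAlgClosed L]
    [Algebra K L] {ι : Type*} {x : ι → L} (hx : IsTranscendenceBasis K x)
    (g : MvPolynomial ι K →+* MvPolynomial ι K) (hg : Function.Injective g) :
    ∃ σ : L →+* L, ∀ p, σ (MvPolynomial.aeval x p) = MvPolynomial.aeval x (g p) := by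
  have hj : Function.Injective
      (((MvPolynomial.aeval x).toRingHom.comp g).comp hx.1.aevalEquiv.symm.toRingEquiv.toRingHom) :=
    (Function.Injective.comp (show Function.Injective (MvPolynomial.aeval (R := K) x) from hx.1) hg).comp
      hx.1.aevalEquiv.symm.injective
  obtain ⟨σ, hσ⟩ := exists_ringHom_extension (Algebra.adjoin K (Set.range x)).val.toRingHom _
    Subtype.val_injective hj hx.isAlgebraic
  refine ⟨σ, fun p => ?_⟩
  have h := RingHom.congr_fun hσ (hx.1.aevalEquiv p)
  simp only [RingHom.comp_apply, AlgHom.toRingHom_eq_coe, RingHom.coe_coe,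
    RingEquiv.toRingHom_eq_coe] at h
  simpa using h

theorem exists_ringHom_ne_of_not_rat {z : ℂ} (hz : ∀ r : ℚ, (r : ℂ) ≠ z) :
    ∃ σ : ℂ →+* ℂ, σ z ≠ z := by
  classical
  let K : IntermediateField ℚ ℂ := algebraicClosure ℚ ℂ
  have : IsAlgClosure ℚ K := algebraicClosure.isAlgClosure ℚ ℂ
  have : IsAlgClosed K := IsAlgClosure.isAlgClosed ℚ
  have : IsGalois ℚ K := IsAlgClosure.isGalois ℚ K
  by_cases hzK : z ∈ K
  · have hnot : (⟨z, hzK⟩ : K) ∉ Set.range (algebraMap ℚ K) := by
      rintro ⟨r, hr⟩
      exact hz r (by simpa using congrArg Subtype.val hr)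
    rw [InfiniteGalois.mem_range_algebraMap_iff_fixed] at hnot
    push Not at hnot
    obtain ⟨τ, hτ⟩ := hnot
    obtain ⟨s, hs⟩ := exists_isTranscendenceBasis K ℂ
    obtain ⟨σ, hσ⟩ := exists_ringHom_of_transcendenceBasis hs
      (MvPolynomial.map (τ : K →+* K)) (MvPolynomial.map_injective _ τ.injective)
    refine ⟨σ, fun h => hτ (Subtype.ext ?_)⟩
    have := hσ (MvPolynomial.C ⟨z, hzK⟩)
    simp only [MvPolynomial.aeval_C, MvPolynomial.map_C] at this
    exact this.symm.trans h
  · have htr : Transcendental K z := by
      intro halg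
      have hint : IsIntegral K z := halg.isIntegral
      have hdeg : (minpoly K z).degree = 1 :=
        IsAlgClosed.degree_eq_one_of_irreducible K (minpoly.irreducible hint)
      obtain ⟨w, hw⟩ := (minpoly.degree_eq_one_iff).mp hdeg
      exact hzK (hw ▸ w.2)
    obtain ⟨t, hzt, ht⟩ := exists_isTranscendenceBasis_superset (R := K) (s := ({z} : Set ℂ))
      (algebraicIndependent_unique_type_iff.mpr (by simpa using htr))
    let z₀ : t := ⟨z, hzt rfl⟩
    let fwd : t → MvPolynomial t K :=
      fun b => if b = z₀ then MvPolynomial.X b + 1 else MvPolynomial.X b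
    let bwd : t → MvPolynomial t K :=
      fun b => if b = z₀ then MvPolynomial.X b - 1 else MvPolynomial.X b
    have hcomp : (MvPolynomial.aeval bwd).comp (MvPolynomial.aeval fwd) =
        AlgHom.id K (MvPolynomial t K) := by
      refine MvPolynomial.algHom_ext fun b => ?_
      by_cases hb : b = z₀ <;> simp [fwd, bwd, hb]
    have hinj : Function.Injective (MvPolynomial.aeval (R := K) fwd) := fun p q hpq => by
      have h := congrArg (MvPolynomial.aeval (R := K) bwd) hpq
      rwa [← AlgHom.comp_apply, ← AlgHom.comp_apply, hcomp] at h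
    obtain ⟨σ, hσ⟩ := exists_ringHom_of_transcendenceBasis ht
      (MvPolynomial.aeval fwd).toRingHom hinj
    refine ⟨σ, ?_⟩
    have := hσ (MvPolynomial.X z₀)
    simp [fwd, z₀] at this
    simp [this]

/-- A complex number fixed by all field endomorphisms is rational. -/
theorem exists_rat_eq_of_forall_ringHom {z : ℂ} (h : ∀ σ : ℂ →+* ℂ, σ z = z) :
    ∃ r : ℚ, (r : ℂ) = z := by
  by_contra hne
  push Not at hne
  obtain ⟨σ, hσ⟩ := exists_ringHom_ne_of_not_rat hne
  exact hσ (h σ)

end Fermat.Agent.Integral
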