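import Fermat.Agent.Integral.Conjugation
import Fermat.Agent.Integral.FieldAut
import Fermat.Prelude.Def_CuspForm_IntegralStructure
import Fermat.Prelude.Def_CuspForm_IntegralLattice
import Fermat.Prelude.Def_CuspForm_HeckeAlgebra
import Fermat.Prelude.Thm_ModularForm_sturm_bound_Gamma0
import Fermat.Prelude.Thm_CuspForm_mem_intLattice_of_mem_heckeAlgebra
import Fermat.Prelude.Thm_CuspForm_intLattice_fg

/-!
# The integral structure on cusp forms for `Γ₀(N)` and finiteness of the Hecke algebra
-/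

set_option autoImplicit false

noncomputable section

open UpperHalfPlane hiding I
open Function
open scoped Manifold MatrixGroups ModularForm PowerSeries

namespace Fermat.Agent.Integral

variable {N : ℕ} [NeZero N] {k : ℤ}

/-- The q-expansion of a cusp form, linearly. -/
def qLin (N : ℕ) [NeZero N] (k : ℤ) :
    CuspForm (CongruenceSubgroup.Gamma0 N) k →ₗ[ℂ] ℂ⟦X⟧ :=
  qExp.toLinearMap ∘ₗ
    { toFun := fun f => (⟨f, cuspForm_mem_nice f⟩ : nice)
      map_add' := fun _ _ => rfl
      map_smul' := fun _ _ => rfl }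

theorem qLin_apply (f : CuspForm (CongruenceSubgroup.Gamma0 N) k) :
    qLin N k f = qExpansion 1 f := rfl

theorem coeff_qLin (f : CuspForm (CongruenceSubgroup.Gamma0 N) k) (m : ℕ) :
    PowerSeries.coeff m (qLin N k f) = ModularFormClass.qCoeff f m := rfl

theorem qLin_injective : Injective (qLin N k) := fun _ _ h =>
  DFunLike.coe_injective (congrArg Subtype.val (qExp_injective h))

/-- The Sturm bound. -/
def sturmIndex (N : ℕ) (k : ℤ) : ℕ :=
  (k * (CongruenceSubgroup.Gamma0 N).index).toNat / 12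

theorem eq_zero_of_qCoeff_le (f : CuspForm (CongruenceSubgroup.Gamma0 N) k)
    (h : ∀ m ≤ sturmIndex N k, ModularFormClass.qCoeff f m = 0) : f = 0 := by
  have h0 : (ModularFormClass.modularForm f : ModularForm (CongruenceSubgroup.Gamma0 N) k) = 0 :=
    ModularForm.sturm_bound_Gamma0 N _ fun m hm => h m hm
  refine DFunLike.coe_injective ?_
  have := congrArg (fun g : ModularForm (CongruenceSubgroup.Gamma0 N) k => (⇑g : ℍ → ℂ)) h0
  simpa using this

theorem qCoeff_zero_eq_zero (f : CuspForm (CongruenceSubgroup.Gamma0 N) k) :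
    ModularFormClass.qCoeff f 0 = 0 :=
  coeff_zero_of_isZeroAtImInfty (cuspForm_mem_nice f)
    (by simpa using cuspForm_slash_isZeroAtImInfty f 1)

/-- The space of cusp forms of weight at most zero is zero. -/
theorem eq_zero_of_weight_nonpos (hk : k ≤ 0) (f : CuspForm (CongruenceSubgroup.Gamma0 N) k) :
    f = 0 := by
  refine eq_zero_of_qCoeff_le f fun m hm => ?_
  have hle : k * (CongruenceSubgroup.Gamma0 N).index ≤ 0 :=
    mul_nonpos_of_nonpos_of_nonneg hk (by positivity)
  rw [sturmIndex, Int.toNat_of_nonpos hle, Nat.zero_div, Nat.le_zero] at hm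
  rw [hm, qCoeff_zero_eq_zero]

/-- Rational forms have bounded denominators. -/
theorem bddSeries_of_rational (f : CuspForm (CongruenceSubgroup.Gamma0 N) k) {r : ℚ⟦X⟧}
    (hr : ratMap r = qExpansion 1 f) : r ∈ bddSeries := by
  let lf := cuspLevelFun f
  have hfn : lf.toFun ∈ nice := cuspForm_mem_nice f
  set n := index N with hn
  obtain ⟨rF, hrF, hrF'⟩ := intSeries_complex_eq (qExpansion_scaledDelta_int (NeZero.ne N))
  -- the relation `f * D = G`
  have hG := congrArg qExp (deltaPoly_interp lf hfn)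
  rw [map_mul] at hG
  have hDne : qExp (deltaPoly N (denomForm N)) ≠ 0 :=
    (map_ne_zero_iff _ qExp_injective).mpr deltaPoly_denomForm_ne_zero
  obtain ⟨m, hm⟩ : ∃ m, PowerSeries.coeff m (qExp (deltaPoly N (denomForm N))) ≠ 0 := by
    by_contra! h
    exact hDne (PowerSeries.ext fun j => by simp [h j])
  obtain ⟨φ, hφ⟩ := exists_functional hm
  obtain ⟨ψ, hψ⟩ := exists_functional (one_ne_zero : (1 : ℂ) ≠ 0)
  have hpoly : ∀ {w : ℕ → ℤ} (g : ∀ i, ModularForm 𝒮ℒ (w i)) (φ : ℂ →ₗ[ℚ] ℚ),
      piMap φ (qExp (deltaPoly N g)) ∈ bddSeries := by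
    intro w g φ
    rw [qExp_deltaPoly, map_sum]
    refine sum_mem fun i _ => ?_
    rw [← hrF', ← map_pow, piMap_mul_ratMap]
    exact mul_mem (piMap_mem_bddSeries_of_mem_span (levelOne_mem_span_intSeries (g i)) φ)
      (pow_mem (intSeries_le_bddSeries hrF) i)
  have hBne : piMap φ (qExp (deltaPoly N (denomForm N))) ≠ 0 := fun h => by
    have := congrArg (PowerSeries.coeff m) h
    rw [coeff_piMap, hφ, map_zero] at this
    exact one_ne_zero this
  refine mem_bddSeries_of_mul_mem_of_monic hBne (hpoly (interpForm lf (deltaFun N)) φ)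
    (hpoly (denomForm N) φ) ?_ (fun i => piMap ψ (qExpansion 1 (charForm lf i)))
    (fun i => piMap_mem_bddSeries_of_mem_span (levelOne_mem_span_intSeries _) ψ) (n := n) ?_
  · rw [hG, show qExp (⟨lf.toFun, hfn⟩ : nice) = ratMap r from hr.symm, mul_comm (ratMap r),
      piMap_mul_ratMap, mul_comm]
  · have h := congrArg (fun p => piMap ψ (qExp p)) (charForm_relation_nice lf hfn)
    simp only [map_add, map_pow, map_sum, map_mul, map_zero, ← hn,
      show qExp (⟨lf.toFun, hfn⟩ : nice) = ratMap r from hr.symm] at h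
    simp only [← map_pow, piMap_mul_ratMap, piMap_ratMap hψ] at h
    exact h

/-- Some positive integral multiple of a rational form is integral. -/
theorem exists_smul_mem_intLattice (f : CuspForm (CongruenceSubgroup.Gamma0 N) k)
    (hf : ∀ m, ∃ r : ℚ, (r : ℂ) = ModularFormClass.qCoeff f m) :
    ∃ d : ℤ, d ≠ 0 ∧ ∀ m, ∃ z : ℤ, ModularFormClass.qCoeff ⇑((d : ℂ) • f) m = (z : ℂ) := by
  choose r hr using hf
  have h : ratMap (PowerSeries.mk r) = qExpansion 1 f :=
    PowerSeries.ext fun m => by simpa [ModularFormClass.qCoeff] using hr m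
  obtain ⟨d, hd, hmem⟩ := bddSeries_of_rational f h
  refine ⟨d, hd, fun m => ?_⟩
  obtain ⟨z, hz⟩ := mem_intSeries_iff.mp hmem m
  refine ⟨z, ?_⟩
  rw [← coeff_qLin, map_smul, PowerSeries.coeff_smul, coeff_qLin, ← hr m, smul_eq_mul]
  rw [← map_intCast (PowerSeries.C (R := ℚ)), PowerSeries.coeff_C_mul, PowerSeries.coeff_mk] at hz
  exact_mod_cast hz

/-- A finite set of indices and forms with coefficients `δ` there, spanning all forms. -/
theorem exists_echelon (N : ℕ) [NeZero N] (k : ℤ) :
    ∃ (J : Finset ℕ) (v : ℕ → CuspForm (CongruenceSubgroup.Gamma0 N) k),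
      (∀ f : CuspForm (CongruenceSubgroup.Gamma0 N) k,
        (∀ j ∈ J, ModularFormClass.qCoeff f j = 0) → f = 0) ∧
      ∀ i ∈ J, ∀ j ∈ J, ModularFormClass.qCoeff (v i) j = if j = i then 1 else 0 := by
  classical
  let good : Set (Finset ℕ) :=
    {J | ∀ f : CuspForm (CongruenceSubgroup.Gamma0 N) k,
      (∀ j ∈ J, ModularFormClass.qCoeff f j = 0) → f = 0}
  have hne : Finset.range (sturmIndex N k + 1) ∈ good := fun f hf =>
    eq_zero_of_qCoeff_le f fun m hm => hf m (Finset.mem_range.mpr (Nat.lt_succ_of_le hm))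
  obtain ⟨J, hJ, hmin⟩ := wellFounded_lt.has_min good ⟨_, hne⟩
  have hex : ∀ i ∈ J, ∃ v : CuspForm (CongruenceSubgroup.Gamma0 N) k,
      ∀ j ∈ J, ModularFormClass.qCoeff v j = if j = i then 1 else 0 := by
    intro i hi
    have hnot : J.erase i ∉ good := fun h => hmin _ h (Finset.erase_ssubset hi)
    simp only [good, Set.mem_ofPred_eq, not_forall] at hnot
    obtain ⟨f, hf, hf0⟩ := hnot
    have hfi : ModularFormClass.qCoeff f i ≠ 0 := fun h => hf0 (hJ f fun j hj => by
      by_cases hji : j = i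
      · rwa [hji]
      · exact hf j (Finset.mem_erase.mpr ⟨hji, hj⟩))
    refine ⟨(ModularFormClass.qCoeff f i)⁻¹ • f, fun j hj => ?_⟩
    rw [← coeff_qLin, map_smul, PowerSeries.coeff_smul, coeff_qLin, smul_eq_mul]
    split_ifs with hji
    · rw [hji, inv_mul_cancel₀ hfi]
    · rw [hf j (Finset.mem_erase.mpr ⟨hji, hj⟩), mul_zero]
  choose! v hv using hex
  exact ⟨J, v, hJ, hv⟩

theorem mem_intLattice_of_forall {f : CuspForm (CongruenceSubgroup.Gamma0 N) k}
    (h : ∀ m, ∃ z : ℤ, ModularFormClass.qCoeff f m = (z : ℂ)) : f ∈ CuspForm.intLattice N k :=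
  Submodule.subset_span h

/-- Cusp forms on `Γ₀(N)` of every weight are spanned by forms with integral coefficients. -/
theorem span_intForms_eq_top (N : ℕ) [NeZero N] (k : ℤ) :
    Submodule.span ℂ {f : CuspForm (CongruenceSubgroup.Gamma0 N) k |
      ∀ m, ∃ z : ℤ, ModularFormClass.qCoeff f m = (z : ℂ)} = ⊤ := by
  classical
  obtain ⟨J, v, hJ, hv⟩ := exists_echelon N k
  have hrat : ∀ i ∈ J, ∀ m, ∃ r : ℚ, (r : ℂ) = ModularFormClass.qCoeff (v i) m := by
    intro i hi m
    refine exists_rat_eq_of_forall_ringHom fun σ => ?_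
    obtain ⟨g, hg⟩ := exists_cuspForm_conj σ (v i)
    have hgv : g - v i = 0 := by
      refine hJ _ fun j hj => ?_
      rw [← coeff_qLin, map_sub, map_sub, qLin_apply g, hg, PowerSeries.coeff_map]
      show σ (ModularFormClass.qCoeff (v i) j) - ModularFormClass.qCoeff (v i) j = 0
      rw [hv i hi j hj]
      split_ifs <;> simp
    rw [sub_eq_zero] at hgv
    have h := congrArg (PowerSeries.coeff m) hg
    rw [hgv, PowerSeries.coeff_map] at h
    exact h.symm
  rw [Submodule.eq_top_iff']
  intro f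
  have hf : f = ∑ i ∈ J, ModularFormClass.qCoeff f i • v i := by
    rw [← sub_eq_zero]
    refine hJ _ fun j hj => ?_
    rw [← coeff_qLin, map_sub, map_sub, map_sum, map_sum,
      Finset.sum_eq_single_of_mem j hj fun i hi hij => by
        rw [map_smul, PowerSeries.coeff_smul, coeff_qLin, hv i hi j hj, if_neg hij.symm,
          smul_zero],
      map_smul, PowerSeries.coeff_smul, coeff_qLin, coeff_qLin, hv j hj j hj]
    simp
  rw [hf]
  refine Submodule.sum_mem _ fun i hi => Submodule.smul_mem _ _ ?_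
  obtain ⟨d, hd, hint⟩ := exists_smul_mem_intLattice (v i) (hrat i hi)
  have hd' : (d : ℂ) ≠ 0 := Int.cast_ne_zero.mpr hd
  rw [← inv_smul_smul₀ hd' (v i)]
  exact Submodule.smul_mem _ _ (Submodule.subset_span hint)

theorem hasIntegralStructure (N : ℕ) [NeZero N] (k : ℤ) : CuspForm.HasIntegralStructure N k :=
  top_unique ((span_intForms_eq_top N k).ge.trans
    (Submodule.span_mono fun _ hf => mem_intLattice_of_forall hf))

theorem hasIntegralBasis (N : ℕ) [NeZero N] : CuspForm.HasIntegralBasis N :=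
  top_unique ((span_intForms_eq_top N 2).ge.trans (Submodule.span_mono fun f hf n => by
    obtain ⟨z, hz⟩ := hf n
    show ModularFormClass.qCoeff f n ∈ (⊥ : Subring ℂ)
    rw [hz]
    exact intCast_mem _ z))

theorem finiteDimensional_cuspForm (N : ℕ) [NeZero N] (k : ℤ) :
    FiniteDimensional ℂ (CuspForm (CongruenceSubgroup.Gamma0 N) k) := by
  refine Module.Finite.of_injective
    (LinearMap.pi fun i : Fin (sturmIndex N k + 1) => (PowerSeries.coeff (i : ℕ)).comp (qLin N k))
    ((injective_iff_map_eq_zero _).mpr fun f hf => eq_zero_of_qCoeff_le f fun m hm => ?_)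
  exact congrFun hf ⟨m, Nat.lt_succ_of_le hm⟩

/-- The Hecke algebra is a finite `ℤ`-module. -/
theorem moduleFinite_heckeAlgebra (N : ℕ) [NeZero N] (k : ℤ) (S : Set ℕ) :
    Module.Finite ℤ (CuspForm.heckeAlgebra N k S) := by
  by_cases hk : k ≤ 0
  · have : Subsingleton (CuspForm.heckeAlgebra N k S) := ⟨fun a b => Subtype.ext
      (LinearMap.ext fun f => by
        rw [eq_zero_of_weight_nonpos hk f, map_zero, map_zero])⟩
    exact Module.Finite.of_finite
  replace hk : 1 ≤ k := by omega
  let L := CuspForm.intLattice N k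
  have : Module.Finite ℤ L := Module.Finite.iff_fg.mpr (CuspForm.intLattice_fg N k)
  have : IsAddTorsionFree (CuspForm (CongruenceSubgroup.Gamma0 N) k) := .of_isTorsionFree ℂ _
  have : Module.Free ℤ L := Module.free_of_finite_type_torsion_free'
  let Φ : CuspForm.heckeAlgebra N k S →ₗ[ℤ] (L →ₗ[ℤ] L) :=
    { toFun := fun t => LinearMap.restrict (t.1.restrictScalars ℤ)
        fun _ hf => CuspForm.mem_intLattice_of_mem_heckeAlgebra hk t.2 hf
      map_add' := fun _ _ => LinearMap.ext fun _ => Subtype.ext rfl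
      map_smul' := fun _ _ => LinearMap.ext fun _ => Subtype.ext rfl }
  refine Module.Finite.of_injective Φ ((injective_iff_map_eq_zero Φ).mpr fun t ht => ?_)
  refine Subtype.ext (LinearMap.ext_on (hasIntegralStructure N k) fun f hf => ?_)
  exact congrArg Subtype.val (LinearMap.congr_fun ht ⟨f, hf⟩)

end Fermat.Agent.Integral
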