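import Mathlib.RingTheory.PowerSeries.Ideal
import Mathlib.RingTheory.PowerSeries.Basic
import Mathlib.RingTheory.LocalRing.Basic
import Mathlib.RingTheory.Polynomial.RationalRoot
import Mathlib.Analysis.Complex.Basic

/-!
# Power series with integral, rational, or boundedly rational coefficients

The main point is `isInt_of_mul_eq_of_monic`: `ℤ⟦X⟧` is integrally closed, which gives bounded
denominators for rational power series that are integral over, and in the fraction field of,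
power series with bounded denominators.
-/

set_option autoImplicit false

noncomputable section

open scoped PowerSeries

namespace Fermat.Agent.Integral

/-- The subring of `R⟦X⟧` of series with integer coefficients. -/
def intSeries (R : Type*) [CommRing R] : Subring R⟦X⟧ :=
  (PowerSeries.map (Int.castRingHom R)).range

theorem mem_intSeries_iff {R : Type*} [CommRing R] {p : R⟦X⟧} :
    p ∈ intSeries R ↔ ∀ m, ∃ z : ℤ, PowerSeries.coeff m p = (z : R) := by
  constructor
  · rintro ⟨P, rfl⟩ m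
    exact ⟨PowerSeries.coeff m P, by simp⟩
  · intro h
    choose z hz using h
    exact ⟨PowerSeries.mk z, PowerSeries.ext fun m => by simp [hz]⟩

/-- Rational power series with bounded denominators. -/
def bddSeries : Subring ℚ⟦X⟧ where
  carrier := {p | ∃ d : ℤ, d ≠ 0 ∧ (d : ℚ⟦X⟧) * p ∈ intSeries ℚ}
  mul_mem' := by
    rintro p q ⟨a, ha, hp⟩ ⟨b, hb, hq⟩
    exact ⟨a * b, mul_ne_zero ha hb, by
      push_cast; rw [mul_mul_mul_comm]; exact mul_mem hp hq⟩
  one_mem' := ⟨1, one_ne_zero, by simp⟩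
  add_mem' := by
    rintro p q ⟨a, ha, hp⟩ ⟨b, hb, hq⟩
    refine ⟨a * b, mul_ne_zero ha hb, ?_⟩
    have h : ((a * b : ℤ) : ℚ⟦X⟧) * (p + q) =
        (b : ℚ⟦X⟧) * ((a : ℚ⟦X⟧) * p) + (a : ℚ⟦X⟧) * ((b : ℚ⟦X⟧) * q) := by
      push_cast; ring
    rw [h]
    exact add_mem (mul_mem (intCast_mem _ b) hp) (mul_mem (intCast_mem _ a) hq)
  zero_mem' := ⟨1, one_ne_zero, by simp⟩
  neg_mem' := by
    rintro p ⟨a, ha, hp⟩
    exact ⟨a, ha, by rw [mul_neg]; exact neg_mem hp⟩

theorem mem_bddSeries_iff {p : ℚ⟦X⟧} :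
    p ∈ bddSeries ↔ ∃ d : ℤ, d ≠ 0 ∧ (d : ℚ⟦X⟧) * p ∈ intSeries ℚ :=
  Iff.rfl

theorem intSeries_le_bddSeries : intSeries ℚ ≤ bddSeries :=
  fun _ hp => ⟨1, one_ne_zero, by simpa using hp⟩

theorem C_mem_bddSeries (r : ℚ) : PowerSeries.C r ∈ bddSeries := by
  refine ⟨(r.den : ℤ), by simp, ?_⟩
  have h : ((r.den : ℤ) : ℚ⟦X⟧) * PowerSeries.C r = PowerSeries.C ((r.num : ℤ) : ℚ) := by
    rw [← map_intCast (PowerSeries.C (R := ℚ)), ← map_mul]
    congr 1
    rw [mul_comm]; exact_mod_cast r.mul_den_eq_num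
  rw [h, map_intCast]
  exact intCast_mem _ _

/-- `ℤ⟦X⟧` is integrally closed: a rational series that is a quotient of two integral series and
satisfies a monic equation with integral coefficients is integral. -/
theorem isInt_of_mul_eq_of_monic {x : ℚ⟦X⟧} {A B : ℤ⟦X⟧} (hB : B ≠ 0)
    (hxB : x * PowerSeries.map (Int.castRingHom ℚ) B = PowerSeries.map (Int.castRingHom ℚ) A)
    {n : ℕ} (c : ℕ → ℤ⟦X⟧)
    (hc : x ^ n + ∑ i ∈ Finset.range n, PowerSeries.map (Int.castRingHom ℚ) (c i) * x ^ i = 0) :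
    x ∈ intSeries ℚ := by
  classical
  let e := PowerSeries.map (Int.castRingHom ℚ)
  have he : Function.Injective e :=
    PowerSeries.map_injective _ Int.cast_injective
  have hZ : A ^ n + ∑ i ∈ Finset.range n, c i * A ^ i * B ^ (n - i) = 0 := by
    apply he
    simp only [map_add, map_pow, map_sum, map_mul, map_zero, e, ← hxB]
    have h := congrArg (fun t => t * (PowerSeries.map (Int.castRingHom ℚ) B) ^ n) hc
    simp only [zero_mul, add_mul, Finset.sum_mul, ← mul_pow] at h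
    refine Eq.trans ?_ h
    congr 1
    refine Finset.sum_congr rfl fun i hi => ?_
    rw [Finset.mem_range] at hi
    conv_rhs => rw [show n = i + (n - i) by omega, pow_add]
    rw [mul_pow]
    ring
  let K := FractionRing ℤ⟦X⟧
  let u := algebraMap ℤ⟦X⟧ K
  have hu : Function.Injective u := IsFractionRing.injective _ _
  have huB : u B ≠ 0 := fun h => hB (hu (by simpa using h))
  have hint : IsIntegral ℤ⟦X⟧ (u A / u B) := by
    refine ⟨Polynomial.X ^ n + ∑ i ∈ Finset.range n, Polynomial.C (c i) * Polynomial.X ^ i,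
      Polynomial.monic_X_pow_add ((Polynomial.degree_sum_le _ _).trans_lt ?_), ?_⟩
    · refine (Finset.sup_lt_iff (WithBot.bot_lt_coe n)).mpr fun i hi => ?_
      exact (Polynomial.degree_C_mul_X_pow_le i _).trans_lt
        (WithBot.coe_lt_coe.mpr (Finset.mem_range.mp hi))
    · simp only [Polynomial.eval₂_add, Polynomial.eval₂_pow, Polynomial.eval₂_X,
        Polynomial.eval₂_finsetSum, Polynomial.eval₂_mul, Polynomial.eval₂_C]
      have h := congrArg u hZ
      simp only [map_add, map_pow, map_sum, map_mul, map_zero] at h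
      have hne : u B ^ n ≠ 0 := pow_ne_zero _ huB
      refine (mul_eq_zero.mp (?_ : (u B) ^ n * _ = 0)).resolve_left hne
      refine Eq.trans ?_ h
      rw [mul_add, Finset.mul_sum, div_pow, mul_div_cancel₀ _ hne]
      congr 1
      refine Finset.sum_congr rfl fun i hi => ?_
      rw [Finset.mem_range] at hi
      rw [show n = i + (n - i) by omega, pow_add, div_pow,
        show i + (n - i) - i = n - i by omega]
      change u B ^ i * u B ^ (n - i) * (u (c i) * (u A ^ i / u B ^ i)) = _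
      calc u B ^ i * u B ^ (n - i) * (u (c i) * (u A ^ i / u B ^ i))
          = u (c i) * (u B ^ i * (u A ^ i / u B ^ i)) * u B ^ (n - i) := by ring
        _ = _ := by rw [mul_div_cancel₀ _ (pow_ne_zero i huB)]
  obtain ⟨a, ha⟩ := (IsIntegrallyClosed.isIntegral_iff (K := K)).mp hint
  have hAB : a * B = A := hu (by rw [map_mul]; exact (eq_div_iff huB).mp ha)
  refine ⟨a, ?_⟩
  have hBQ : e B ≠ 0 := fun h => hB (he (by simpa using h))
  apply mul_right_cancel₀ hBQ
  rw [← map_mul, hAB]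
  exact hxB.symm

/-- A rational series which is a quotient of bounded series and integral over bounded series has
bounded denominators. -/
theorem mem_bddSeries_of_mul_mem_of_monic {x A B : ℚ⟦X⟧} (hB0 : B ≠ 0) (hA : A ∈ bddSeries)
    (hB : B ∈ bddSeries) (hxB : x * B = A) {n : ℕ} (c : ℕ → ℚ⟦X⟧) (hc : ∀ i, c i ∈ bddSeries)
    (hmon : x ^ n + ∑ i ∈ Finset.range n, c i * x ^ i = 0) : x ∈ bddSeries := by
  classical
  obtain ⟨a, ha, A', hA'⟩ := hA
  obtain ⟨b, hb, B', hB'⟩ := hB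
  choose d hd C' hC' using hc
  let m : ℤ := ∏ i ∈ Finset.range n, d i
  have hm : m ≠ 0 := Finset.prod_ne_zero_iff.mpr fun i _ => hd i
  refine ⟨m, hm, ?_⟩
  have hcast : ∀ z : ℤ, PowerSeries.map (Int.castRingHom ℚ) (z : ℤ⟦X⟧) = (z : ℚ⟦X⟧) :=
    fun z => map_intCast _ z
  have hne : ∀ {z : ℤ}, z ≠ 0 → (z : ℚ⟦X⟧) ≠ 0 := fun {z} hz h => by
    rw [← map_intCast (PowerSeries.C (R := ℚ))] at h
    exact hz (by exact_mod_cast PowerSeries.C_injective (h.trans (map_zero _).symm))
  have hdvd : ∀ i ∈ Finset.range n, ∃ q : ℤ, m ^ (n - i) = q * d i := fun i hi => by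
    obtain ⟨q, hq⟩ : d i ∣ m ^ (n - i) :=
      dvd_trans (Finset.dvd_prod_of_mem _ hi)
        (dvd_pow_self _ (by rw [Finset.mem_range] at hi; omega))
    exact ⟨q, by rw [hq, mul_comm]⟩
  choose! q hq using hdvd
  refine isInt_of_mul_eq_of_monic (A := ((m * b : ℤ) : ℤ⟦X⟧) * A')
    (B := (a : ℤ⟦X⟧) * B') ?_ ?_ (n := n) (fun i => (q i : ℤ⟦X⟧) * C' i) ?_
  · intro h
    have h' := congrArg (PowerSeries.map (Int.castRingHom ℚ)) h
    rw [map_mul, hcast, hB', map_zero, ← mul_assoc] at h'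
    exact (mul_ne_zero (mul_ne_zero (hne ha) (hne hb)) hB0) h'
  · simp only [map_mul, hcast, hA', hB', ← hxB]
    push_cast; ring
  · have h := congrArg (fun t => ((m : ℚ⟦X⟧)) ^ n * t) hmon
    simp only [mul_zero, mul_add, Finset.mul_sum, ← mul_pow] at h
    refine Eq.trans ?_ h
    congr 1
    refine Finset.sum_congr rfl fun i hi => ?_
    rw [map_mul, hcast, hC', mul_pow, ← mul_assoc (q i : ℚ⟦X⟧), ← Int.cast_mul, ← hq i hi]
    rw [Finset.mem_range] at hi
    push_cast
    rw [show n = (n - i) + i by omega, pow_add, show n - i + i - i = n - i by omega]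
    ring

/-- Coefficientwise application of a rational linear functional. -/
def piMap (φ : ℂ →ₗ[ℚ] ℚ) : ℂ⟦X⟧ →+ ℚ⟦X⟧ where
  toFun p := PowerSeries.mk fun m => φ (PowerSeries.coeff m p)
  map_zero' := PowerSeries.ext fun m => by simp
  map_add' p q := PowerSeries.ext fun m => by simp

@[simp] theorem coeff_piMap (φ : ℂ →ₗ[ℚ] ℚ) (p : ℂ⟦X⟧) (m : ℕ) :
    PowerSeries.coeff m (piMap φ p) = φ (PowerSeries.coeff m p) := by simp [piMap]

/-- The inclusion of rational series in complex series. -/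
abbrev ratMap : ℚ⟦X⟧ →+* ℂ⟦X⟧ := PowerSeries.map (Rat.castHom ℂ)

theorem piMap_mul_ratMap (φ : ℂ →ₗ[ℚ] ℚ) (p : ℂ⟦X⟧) (r : ℚ⟦X⟧) :
    piMap φ (p * ratMap r) = piMap φ p * r := by
  ext m
  simp only [coeff_piMap, PowerSeries.coeff_mul, map_sum, PowerSeries.coeff_map]
  refine Finset.sum_congr rfl fun ij _ => ?_
  rw [show PowerSeries.coeff ij.1 p * (Rat.castHom ℂ) (PowerSeries.coeff ij.2 r) =
      PowerSeries.coeff ij.2 r • PowerSeries.coeff ij.1 p by
    rw [Algebra.smul_def, mul_comm]; rfl, map_smul, smul_eq_mul, mul_comm]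

theorem piMap_one {φ : ℂ →ₗ[ℚ] ℚ} (h : φ 1 = 1) : piMap φ 1 = 1 := by
  ext m
  by_cases hm : m = 0 <;> simp [PowerSeries.coeff_one, hm, h]

theorem piMap_ratMap {φ : ℂ →ₗ[ℚ] ℚ} (h : φ 1 = 1) (r : ℚ⟦X⟧) : piMap φ (ratMap r) = r := by
  rw [← one_mul (ratMap r), piMap_mul_ratMap, piMap_one h, one_mul]

theorem exists_functional {d : ℂ} (hd : d ≠ 0) : ∃ φ : ℂ →ₗ[ℚ] ℚ, φ d = 1 := by
  obtain ⟨φ, hφ⟩ := LinearMap.exists_leftInverse_of_injective
    (LinearMap.toSpanSingleton ℚ ℂ d)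
    (LinearMap.ker_eq_bot.mpr fun a b hab => smul_left_injective ℚ hd (by simpa using hab))
  exact ⟨φ, by simpa using LinearMap.congr_fun hφ 1⟩

theorem intSeries_complex_eq {p : ℂ⟦X⟧} (hp : p ∈ intSeries ℂ) :
    ∃ r ∈ intSeries ℚ, ratMap r = p := by
  obtain ⟨P, rfl⟩ := hp
  exact ⟨_, ⟨P, rfl⟩, PowerSeries.ext fun m => by simp⟩

theorem piMap_mem_bddSeries_of_mem_span {p : ℂ⟦X⟧}
    (hp : p ∈ Submodule.span ℂ (intSeries ℂ : Set ℂ⟦X⟧)) (φ : ℂ →ₗ[ℚ] ℚ) :
    piMap φ p ∈ bddSeries := by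
  induction hp using Submodule.span_induction generalizing φ with
  | mem x hx =>
    obtain ⟨r, hr, rfl⟩ := intSeries_complex_eq hx
    rw [← one_mul (ratMap r), piMap_mul_ratMap]
    refine mul_mem ?_ (intSeries_le_bddSeries hr)
    have : piMap φ 1 = PowerSeries.C (φ 1) := by
      ext m; by_cases hm : m = 0 <;> simp [PowerSeries.coeff_one, PowerSeries.coeff_C, hm]
    rw [this]
    exact C_mem_bddSeries _
  | zero => rw [map_zero]; exact zero_mem _
  | add x y _ _ hx hy => rw [map_add]; exact add_mem (hx φ) (hy φ)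
  | smul a x _ hx =>
    have : piMap φ (a • x) = piMap (φ.comp (LinearMap.mulLeft ℚ a)) x := by
      ext m; simp
    rw [this]
    exact hx _

end Fermat.Agent.Integral
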