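import Mathlib.NumberTheory.ModularForms.QExpansion
import Mathlib.Analysis.Complex.UpperHalfPlane.Manifold
import Mathlib.NumberTheory.ModularForms.LevelOne.Basic
import Fermat.Agent.Integral.Series

/-!
# Algebras of functions on the upper half plane and their q-expansions
-/

set_option autoImplicit false

noncomputable section

open UpperHalfPlane hiding I
open Function Filter
open scoped Manifold MatrixGroups ModularForm Topology PowerSeries

namespace Fermat.Agent.Integral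

/-- Holomorphic functions on the upper half plane that are bounded at `i∞`. -/
def holBdd : Subalgebra ℂ (ℍ → ℂ) where
  carrier := {f | MDiff f ∧ IsBoundedAtImInfty f}
  mul_mem' hf hg := ⟨hf.1.mul hg.1, hf.2.mul hg.2⟩
  add_mem' hf hg := ⟨hf.1.add hg.1, hf.2.add hg.2⟩
  algebraMap_mem' c := ⟨mdifferentiable_const, const_boundedAtFilter atImInfty c⟩

theorem mem_holBdd {f : ℍ → ℂ} : f ∈ holBdd ↔ MDiff f ∧ IsBoundedAtImInfty f := Iff.rfl

/-- The ideal of `holBdd` of functions vanishing at `i∞`. -/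
def zeroIdeal : Ideal holBdd where
  carrier := {f | IsZeroAtImInfty (f : ℍ → ℂ)}
  add_mem' {f g} hf hg := by
    simpa [IsZeroAtImInfty, ZeroAtFilter, Pi.add_def] using Tendsto.add hf hg
  zero_mem' := tendsto_const_nhds
  smul_mem' c f hf := by
    have hc : IsBoundedAtImInfty (c : ℍ → ℂ) := c.2.2
    show IsZeroAtImInfty ((c : ℍ → ℂ) * (f : ℍ → ℂ))
    have h1 := (Asymptotics.isLittleO_one_iff ℂ).mpr hf
    have h2 : (c : ℍ → ℂ) =O[atImInfty] (fun _ => (1 : ℂ)) := by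
      simpa [IsBoundedAtImInfty, BoundedAtFilter, Asymptotics.isBigO_iff, Pi.one_apply] using hc
    exact (Asymptotics.isLittleO_one_iff ℂ).mp (by simpa [Pi.mul_def] using h2.mul_isLittleO h1)

/-- Holomorphic, 1-periodic functions that are bounded at `i∞`. -/
def nice : Subalgebra ℂ (ℍ → ℂ) where
  carrier := {f | f ∈ holBdd ∧ Periodic (f ∘ ofComplex) (1 : ℝ)}
  mul_mem' hf hg := ⟨mul_mem hf.1 hg.1, hf.2.mul hg.2⟩
  add_mem' hf hg := ⟨add_mem hf.1 hg.1, hf.2.add hg.2⟩
  algebraMap_mem' c := ⟨holBdd.algebraMap_mem c, fun _ => rfl⟩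

theorem mem_nice {f : ℍ → ℂ} :
    f ∈ nice ↔ MDiff f ∧ IsBoundedAtImInfty f ∧ Periodic (f ∘ ofComplex) (1 : ℝ) :=
  ⟨fun h => ⟨h.1.1, h.1.2, h.2⟩, fun h => ⟨⟨h.1, h.2.1⟩, h.2.2⟩⟩

theorem nice_analyticAt (f : nice) : AnalyticAt ℂ (cuspFunction 1 (f : ℍ → ℂ)) 0 :=
  analyticAt_cuspFunction_zero one_pos f.2.2 f.2.1.1 f.2.1.2

/-- The q-expansion as an algebra homomorphism. -/
def qExp : nice →ₐ[ℂ] ℂ⟦X⟧ :=
  AlgHom.ofLinearMap
    { toFun := fun f => qExpansion 1 (f : ℍ → ℂ)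
      map_add' := fun f g => qExpansion_add (nice_analyticAt f) (nice_analyticAt g)
      map_smul' := fun c f => qExpansion_smul (nice_analyticAt f) c }
    (qExpansion_one 1)
    fun f g => qExpansion_mul (nice_analyticAt f) (nice_analyticAt g)

theorem qExp_apply (f : nice) : qExp f = qExpansion 1 (f : ℍ → ℂ) := rfl

theorem qExp_injective : Injective qExp := by
  refine (injective_iff_map_eq_zero qExp).mpr fun f hf => Subtype.ext ?_
  exact (qExpansion_eq_zero_iff one_pos f.2.2 f.2.1.1 f.2.1.2).mp hf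

theorem qExpansion_eq_iff {f g : ℍ → ℂ} (hf : f ∈ nice) (hg : g ∈ nice) :
    qExpansion 1 f = qExpansion 1 g ↔ f = g :=
  ⟨fun h => congrArg Subtype.val (qExp_injective (a₁ := ⟨f, hf⟩) (a₂ := ⟨g, hg⟩) h), fun h => h ▸ rfl⟩

theorem isZeroAtImInfty_of_coeff_zero {f : ℍ → ℂ} (hf : f ∈ nice)
    (h : (qExpansion 1 f).coeff 0 = 0) : IsZeroAtImInfty f := by
  have han := nice_analyticAt ⟨f, hf⟩
  have h0 : cuspFunction 1 f 0 = 0 := by
    rw [cuspFunction_apply_zero one_pos han hf.2,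
      ← qExpansion_coeff_zero one_pos han hf.2, h]
  have key : (cuspFunction 1 f ∘ fun τ : ℍ => Periodic.qParam 1 τ) = f := by
    funext τ
    exact eq_cuspFunction τ one_ne_zero hf.2
  have := han.continuousAt.tendsto.comp (qParam_tendsto_atImInfty one_pos)
  rwa [key, h0] at this

theorem coeff_zero_of_isZeroAtImInfty {f : ℍ → ℂ} (hf : f ∈ nice) (h : IsZeroAtImInfty f) :
    (qExpansion 1 f).coeff 0 = 0 := by
  rw [qExpansion_coeff_zero one_pos (nice_analyticAt ⟨f, hf⟩) hf.2, h.valueAtInfty_eq_zero]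

theorem mem_nice_of_modularForm {F : Type*} [FunLike F ℍ ℂ] {Γ : Subgroup (GL (Fin 2) ℝ)}
    {k : ℤ} [ModularFormClass F Γ k] (hΓ : (1 : ℝ) ∈ Γ.strictPeriods) (f : F) :
    (f : ℍ → ℂ) ∈ nice := by
  have : Fact (IsCusp OnePoint.infty Γ) := ⟨Γ.isCusp_of_mem_strictPeriods one_pos hΓ⟩
  exact mem_nice.mpr ⟨ModularFormClass.holo f, ModularFormClass.bdd_at_infty f,
    SlashInvariantFormClass.periodic_comp_ofComplex f hΓ⟩

theorem slash_SL_eq_self_iff {f : ℍ → ℂ} {k : ℤ} {γ : SL(2, ℤ)} :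
    f ∣[k] γ = f ↔ ∀ z : ℍ, f (γ • z) = denom γ z ^ k * f z := by
  simp only [funext_iff, ModularForm.SL_slash_apply]
  refine forall_congr' fun z => ?_
  have h : (denom γ z : ℂ) ^ k ≠ 0 := zpow_ne_zero _ (denom_ne_zero _ z)
  rw [zpow_neg, mul_inv_eq_iff_eq_mul₀ h, mul_comm (f z)]

theorem periodic_of_slash_T {f : ℍ → ℂ} {k : ℤ} (h : f ∣[k] ModularGroup.T = f) :
    Periodic (f ∘ ofComplex) (1 : ℝ) := by
  rw [slash_SL_eq_self_iff] at h
  have h1 : ∀ z : ℍ, f ((1 : ℝ) +ᵥ z) = f z := fun z => by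
    have hd : denom ModularGroup.T z = 1 := by
      simp [denom, ModularGroup.coe_T]
    have := h z
    rwa [hd, one_zpow, one_mul, UpperHalfPlane.modular_T_smul] at this
  intro w
  by_cases hw : 0 < w.im
  · have : 0 < (w + ((1 : ℝ) : ℂ)).im := by simpa using hw
    simp only [comp_apply, ofComplex_apply_of_im_pos this, ofComplex_apply_of_im_pos hw]
    refine Eq.trans (congrArg f (UpperHalfPlane.ext ?_)) (h1 ⟨w, hw⟩)
    simp [add_comm]
  · rw [not_lt] at hw
    have : (w + ((1 : ℝ) : ℂ)).im ≤ 0 := by simpa using hw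
    simp only [comp_apply, ofComplex_apply_of_im_nonpos this, ofComplex_apply_of_im_nonpos hw]

/-- A holomorphic function that is slash invariant under `SL(2, ℤ)` and bounded at `i∞` is a
level one modular form. -/
def levelOneForm (w : ℤ) (f : ℍ → ℂ) (hinv : ∀ γ : SL(2, ℤ), f ∣[w] γ = f) (hf : f ∈ holBdd) :
    ModularForm 𝒮ℒ w where
  toFun := f
  slash_action_eq' := by
    rintro _ ⟨γ, rfl⟩
    exact hinv γ
  holo' := hf.1
  bdd_at_cusps' {c} hc := by
    rw [OnePoint.isBoundedAt_iff_forall_SL2Z hc]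
    intro γ _
    show IsBoundedAtImInfty (f ∣[w] γ)
    rw [hinv γ]
    exact hf.2

end Fermat.Agent.Integral
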