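import Fermat.Agent.Integral.Main
import Fermat.Agent.Eigen.EigenHom
import Mathlib.NumberTheory.NumberField.Basic

/-!
# Coefficients of eigenforms are algebraic integers in a number field
-/

set_option autoImplicit false

noncomputable section

open CongruenceSubgroup ModularFormClass

namespace Fermat.Agent.Integral

variable {N : ℕ} [NeZero N] {f : CuspForm (Gamma0 N) 2}

/-- The coefficients of a normalised eigenform are algebraic integers. -/
theorem isIntegral_qCoeff (hf : f.IsNormalizedEigenform) (n : ℕ) : IsIntegral ℤ (qCoeff f n) :=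
  Eigen.isIntegral_qCoeff (hasIntegralStructure N 2) hf n

/-- The values of an eigencharacter are algebraic integers. -/
theorem isIntegral_eigenChar (hf : f.IsNormalizedEigenform) {S : Set ℕ}
    (t : CuspForm.heckeAlgebra N 2 S) : IsIntegral ℤ (Eigen.eigenChar f hf S t) :=
  Eigen.isIntegral_eigenChar (hasIntegralStructure N 2) hf t

/-- Every character of the Hecke algebra comes from a normalised eigenform. -/
theorem exists_eigenform_of_ringHom {S : Set ℕ} (χ : CuspForm.heckeAlgebra N 2 S →+* ℂ) :
    ∃ (g : CuspForm (Gamma0 N) 2) (hg : g.IsNormalizedEigenform), Eigen.eigenChar g hg S = χ :=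
  Eigen.exists_eigenform_of_ringHom (hasIntegralStructure N 2) χ

/-- All coefficients of a normalised eigenform lie in the ring generated by its prime ones. -/
theorem qCoeff_mem_of_prime (hf : f.IsNormalizedEigenform) (R : Subring ℂ)
    (h : ∀ p : ℕ, p.Prime → qCoeff f p ∈ R) (n : ℕ) : qCoeff f n ∈ R := by
  induction n using Nat.recOnPrimeCoprime with
  | zero => rw [Eigen.qCoeff_index_zero]; exact zero_mem R
  | prime_pow p m hp =>
    induction m using Nat.strong_induction_on with
    | _ m ih =>
      rcases m with _ | _ | r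
      · rw [pow_zero, hf.qCoeff_one]; exact one_mem R
      · rw [pow_one]; exact h p hp
      · by_cases hpN : p ∣ N
        · rw [hf.qCoeff_prime_pow_of_dvd p r hp hpN]
          exact mul_mem (h p hp) (ih _ (by omega))
        · rw [hf.qCoeff_prime_pow_of_not_dvd p r hp hpN]
          exact sub_mem (mul_mem (h p hp) (ih _ (by omega)))
            (mul_mem (natCast_mem R p) (ih _ (by omega)))
  | coprime a b _ _ hab iha ihb => rw [hf.qCoeff_mul_of_coprime a b hab]; exact mul_mem iha ihb

/-- All coefficients of a normalised eigenform lie in the finite `ℤ`-algebra of values of its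
eigencharacter. -/
theorem qCoeff_mem_range_eigenChar (hf : f.IsNormalizedEigenform) (n : ℕ) :
    qCoeff f n ∈ (Eigen.eigenChar f hf ∅).range := by
  refine qCoeff_mem_of_prime hf _ (fun p hp => ?_) n
  by_cases hpN : p ∣ N
  · exact ⟨_, Eigen.eigenChar_U hf hp hpN (Set.notMem_empty p)⟩
  · exact ⟨_, Eigen.eigenChar_T hf hp hpN (Set.notMem_empty p)⟩

/-- The coefficients of a normalised eigenform generate a number field. -/
theorem exists_numberField (hf : f.IsNormalizedEigenform) :
    ∃ K : IntermediateField ℚ ℂ, FiniteDimensional ℚ K ∧ ∀ n, qCoeff f n ∈ K := by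
  classical
  obtain ⟨s, hs⟩ := (moduleFinite_heckeAlgebra N 2 ∅).fg_top
  let χ := Eigen.eigenChar f hf ∅
  refine ⟨IntermediateField.adjoin ℚ (χ '' (s : Set (CuspForm.heckeAlgebra N 2 ∅))),
    @IntermediateField.finiteDimensional_adjoin _ _ _ _ _ _
      (s.finite_toSet.image χ).to_subtype ?_, fun n => ?_⟩
  · rintro x ⟨t, -, rfl⟩
    exact (isIntegral_eigenChar hf t).tower_top
  · obtain ⟨t, ht⟩ := qCoeff_mem_range_eigenChar hf n
    rw [← ht]
    have hmem : t ∈ Submodule.span ℤ (s : Set (CuspForm.heckeAlgebra N 2 ∅)) := by
      rw [hs]; exact Submodule.mem_top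
    clear ht
    induction hmem using Submodule.span_induction with
    | mem x hx => exact IntermediateField.subset_adjoin ℚ _ ⟨x, hx, rfl⟩
    | zero => rw [map_zero]; exact zero_mem _
    | add x y _ _ hx hy => rw [map_add]; exact add_mem hx hy
    | smul a x _ hx => rw [map_zsmul]; exact zsmul_mem hx a

end Fermat.Agent.Integral
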