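import Mathlib.NumberTheory.ModularForms.LevelOne.GradedRing
import Fermat.Agent.Integral.Nice

/-!
# Level one modular forms are spanned by forms with integral q-expansion
-/

set_option autoImplicit false

noncomputable section

open UpperHalfPlane hiding I
open Function
open scoped Manifold MatrixGroups ModularForm PowerSeries

namespace Fermat.Agent.Integral

/-- The q-expansions of level one forms of weight `w` which have integer coefficients. -/
def intExpansions (w : ℤ) : Set ℂ⟦X⟧ :=
  {p | p ∈ intSeries ℂ ∧ ∃ g : ModularForm 𝒮ℒ w, qExpansion 1 g = p}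

theorem qExpansion_E4_int : qExpansion 1 ModularForm.E₄ ∈ intSeries ℂ := by
  refine mem_intSeries_iff.mpr fun m => ?_
  rw [EisensteinSeries.E_qExpansion_coeff _ ⟨2, rfl⟩]
  refine ⟨if m = 0 then 1 else 240 * (ArithmeticFunction.sigma 3 m : ℤ), ?_⟩
  split_ifs with h
  · simp
  · norm_num [show bernoulli 4 = -1 / 30 by decide +kernel]

theorem qExpansion_E6_int : qExpansion 1 ModularForm.E₆ ∈ intSeries ℂ := by
  refine mem_intSeries_iff.mpr fun m => ?_
  rw [EisensteinSeries.E_qExpansion_coeff _ ⟨3, rfl⟩]
  refine ⟨if m = 0 then 1 else (-504) * (ArithmeticFunction.sigma 5 m : ℤ), ?_⟩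
  split_ifs with h
  · simp
  · norm_num [show bernoulli 6 = 1 / 42 by decide +kernel]

theorem qExpansion_discriminant_mul_int :
    (1728 : ℂ) • qExpansion 1 ModularForm.discriminant ∈ intSeries ℂ := by
  let a : ModularForm 𝒮ℒ 12 := ModularForm.mcast (by decide) (ModularForm.E₄.pow 3)
  let b : ModularForm 𝒮ℒ 12 := ModularForm.mcast (by decide) (ModularForm.E₆.pow 2)
  have h : ⇑(a - b) = (1728 : ℂ) • ⇑CuspForm.discriminant := by
    funext z
    rw [Pi.smul_apply, CuspForm.coe_discriminant, smul_eq_mul,
      ModularForm.discriminant_eq_E₄_cube_sub_E₆_sq]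
    simp only [a, b, sub_apply, ModularForm.coe_mcast, ModularForm.coe_pow, Pi.pow_apply]
    ring
  have h2 := congrArg (qExpansion 1) h
  rw [FunLike.coe_sub, ModularForm.qExpansion_sub one_pos one_mem_strictPeriods_SL,
    ModularForm.qExpansion_smul one_pos one_mem_strictPeriods_SL] at h2
  rw [← CuspForm.coe_discriminant, ← h2]
  simp only [a, b, ModularForm.qExpansion_mcast,
    ModularForm.qExpansion_pow one_pos one_mem_strictPeriods_SL]
  exact sub_mem (pow_mem qExpansion_E4_int 3) (pow_mem qExpansion_E6_int 2)

theorem exists_int_unit_form {w : ℤ} (h4 : 4 ≤ w) (he : Even w) :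
    ∃ B : ModularForm 𝒮ℒ w, qExpansion 1 B ∈ intSeries ℂ ∧ (qExpansion 1 B).coeff 0 = 1 := by
  obtain ⟨a, b, hab⟩ : ∃ a b : ℕ, (a : ℤ) * 4 + (b : ℤ) * 6 = w := by
    obtain ⟨r, rfl⟩ := he
    obtain ⟨m, rfl⟩ : ∃ m : ℕ, r = m + 2 := ⟨(r - 2).toNat, by omega⟩
    rcases Nat.even_or_odd m with ⟨s, rfl⟩ | ⟨s, rfl⟩
    · exact ⟨s + 1, 0, by push_cast; ring⟩
    · exact ⟨s, 1, by push_cast; ring⟩
  refine ⟨ModularForm.mcast hab ((ModularForm.E₄.pow a).mul (ModularForm.E₆.pow b)), ?_, ?_⟩
  all_goals rw [ModularForm.qExpansion_mcast, ModularForm.qExpansion_mul one_pos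
    one_mem_strictPeriods_SL, ModularForm.qExpansion_pow one_pos one_mem_strictPeriods_SL,
    ModularForm.qExpansion_pow one_pos one_mem_strictPeriods_SL]
  · exact mul_mem (pow_mem qExpansion_E4_int a) (pow_mem qExpansion_E6_int b)
  · simp only [PowerSeries.coeff_zero_eq_constantCoeff, map_mul, map_pow]
    rw [← PowerSeries.coeff_zero_eq_constantCoeff_apply,
      ← PowerSeries.coeff_zero_eq_constantCoeff_apply,
      EisensteinSeries.E_qExpansion_coeff_zero _ ⟨2, rfl⟩,
      EisensteinSeries.E_qExpansion_coeff_zero _ ⟨3, rfl⟩]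
    simp

theorem levelOne_mem_span (w : ℤ) (f : ModularForm 𝒮ℒ w) :
    qExpansion 1 f ∈ Submodule.span ℂ (intExpansions w) := by
  have key : ∀ n : ℕ, ∀ w : ℤ, w < n → ∀ f : ModularForm 𝒮ℒ w,
      qExpansion 1 f ∈ Submodule.span ℂ (intExpansions w) := by
    intro n
    induction n with
    | zero =>
      intro w hw f
      rw [ModularFormClass.levelOne_neg_weight_eq_zero (by exact_mod_cast hw) f, qExpansion_zero]
      exact zero_mem _
    | succ n ih =>
      intro w hw f
      rcases Int.even_or_odd w with he | ho
      swap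
      · rw [ModularForm.levelOne_odd_weight_eq_zero ho f, FunLike.coe_zero, qExpansion_zero]
        exact zero_mem _
      rcases lt_trichotomy w 0 with h | rfl | h
      · rw [ModularFormClass.levelOne_neg_weight_eq_zero h f, qExpansion_zero]
        exact zero_mem _
      · obtain ⟨c, hc⟩ := ModularFormClass.levelOne_weight_zero_const f
        have : (f : ℍ → ℂ) = c • ⇑(1 : ModularForm 𝒮ℒ 0) := by
          rw [hc]; funext z; simp
        rw [this, ModularForm.qExpansion_smul one_pos one_mem_strictPeriods_SL]
        exact Submodule.smul_mem _ _ (Submodule.subset_span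
          ⟨by rw [ModularForm.qExpansion_one]; exact one_mem _, 1, rfl⟩)
      · by_cases h2 : w = 2
        · subst h2
          rw [show f = 0 from rank_zero_iff_forall_zero.mp
            ModularForm.levelOne_weight_two_rank_zero f, FunLike.coe_zero, qExpansion_zero]
          exact zero_mem _
        have h4 : 4 ≤ w := by
          obtain ⟨r, rfl⟩ := he
          omega
        obtain ⟨B, hBi, hB0⟩ := exists_int_unit_form h4 he
        let c : ℂ := (qExpansion 1 f).coeff 0
        have hq : qExpansion 1 (f - c • B : ModularForm 𝒮ℒ w) =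
            qExpansion 1 f - c • qExpansion 1 B := by
          rw [FunLike.coe_sub, ModularForm.qExpansion_sub one_pos one_mem_strictPeriods_SL,
            FunLike.coe_smul,
            ModularForm.qExpansion_smul one_pos one_mem_strictPeriods_SL]
        have h0 : (qExpansion 1 (f - c • B : ModularForm 𝒮ℒ w)).coeff 0 = 0 := by
          rw [hq, map_sub, PowerSeries.coeff_smul, hB0]; simp [c]
        have hfac := ModularForm.qExpansion_eq_qExpansion_discriminant_mul _ h0
        have hg := ih (w - 12) (by push_cast at hw; omega)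
          (CuspForm.discriminantEquiv (ModularForm.toCuspForm (f - c • B) h0))
        have hf : qExpansion 1 f = c • qExpansion 1 B +
            qExpansion 1 (f - c • B : ModularForm 𝒮ℒ w) := by rw [hq]; abel
        rw [hf, hfac]
        refine add_mem (Submodule.smul_mem _ _ (Submodule.subset_span ⟨hBi, B, rfl⟩)) ?_
        have hle : Submodule.span ℂ (intExpansions (w - 12)) ≤
            (Submodule.span ℂ (intExpansions w)).comap
              (LinearMap.mulLeft ℂ (qExpansion 1 ModularForm.discriminant)) := by
          refine Submodule.span_le.mpr ?_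
          rintro p ⟨hp, g, rfl⟩
          rw [SetLike.mem_coe, Submodule.mem_comap, LinearMap.mulLeft_apply]
          have : qExpansion 1 ModularForm.discriminant * qExpansion 1 g =
              (1728 : ℂ)⁻¹ • (((1728 : ℂ) • qExpansion 1 ModularForm.discriminant) *
                qExpansion 1 g) := by
            rw [smul_mul_assoc, smul_smul]; norm_num
          rw [this]
          refine Submodule.smul_mem _ _ (Submodule.subset_span
            (show _ ∈ intExpansions w from ⟨mul_mem qExpansion_discriminant_mul_int hp,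
              ModularFormClass.modularForm ((1728 : ℂ) • CuspForm.ofMulDiscriminant g), ?_⟩))
          have hco : (⇑(CuspForm.ofMulDiscriminant g) : ℍ → ℂ) =
              ⇑CuspForm.discriminant * ⇑g := rfl
          show qExpansion 1 ⇑((1728 : ℂ) • CuspForm.ofMulDiscriminant g) = _
          rw [FunLike.coe_smul, ModularForm.qExpansion_smul one_pos one_mem_strictPeriods_SL,
            hco, ModularForm.qExpansion_mul_coe one_pos one_mem_strictPeriods_SL,
            CuspForm.coe_discriminant, smul_mul_assoc]
        exact hle hg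
  exact key (w.toNat + 1) w (by omega) f

/-- Applying a field endomorphism to the q-expansion of a level one form gives the q-expansion of
a level one form. -/
theorem exists_levelOne_conj (σ : ℂ →+* ℂ) {w : ℤ} (f : ModularForm 𝒮ℒ w) :
    ∃ g : ModularForm 𝒮ℒ w, qExpansion 1 g = PowerSeries.map σ (qExpansion 1 f) := by
  have h := levelOne_mem_span w f
  generalize qExpansion 1 f = p at h ⊢
  induction h using Submodule.span_induction with
  | mem x hx =>
    obtain ⟨⟨P, rfl⟩, g, hg⟩ := hx
    refine ⟨g, hg.trans (PowerSeries.ext fun m => ?_)⟩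
    simp
  | zero => exact ⟨0, by rw [map_zero, FunLike.coe_zero, qExpansion_zero]⟩
  | add x y _ _ hx hy =>
    obtain ⟨g, hg⟩ := hx
    obtain ⟨g', hg'⟩ := hy
    exact ⟨g + g', by rw [FunLike.coe_add,
      ModularForm.qExpansion_add one_pos one_mem_strictPeriods_SL, hg, hg', map_add]⟩
  | smul a x _ hx =>
    obtain ⟨g, hg⟩ := hx
    refine ⟨σ a • g, ?_⟩
    rw [FunLike.coe_smul,
      ModularForm.qExpansion_smul one_pos one_mem_strictPeriods_SL, hg]
    ext m; simp

theorem levelOne_mem_span_intSeries {w : ℤ} (f : ModularForm 𝒮ℒ w) :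
    qExpansion 1 f ∈ Submodule.span ℂ (intSeries ℂ : Set ℂ⟦X⟧) :=
  Submodule.span_mono (fun _ h => h.1) (levelOne_mem_span w f)

end Fermat.Agent.Integral
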