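import Mathlib.NumberTheory.ModularForms.CongruenceSubgroups
import Mathlib.NumberTheory.ModularForms.LevelOne.GradedRing
import Fermat.Prelude.Def_ModularForm_HeckeOperator
import Fermat.Agent.Integral.LevelOne

/-!
# The form `1728 Δ(Nz)` and its translates under `SL(2, ℤ)`
-/

set_option autoImplicit false

noncomputable section

open UpperHalfPlane hiding I
open Function Filter
open scoped Manifold MatrixGroups ModularForm Topology Real

namespace Fermat.Agent.Integral

/-- `z ↦ 1728 Δ(N z)`. -/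
def scaledDelta (N : ℕ) (z : ℍ) : ℂ :=
  1728 * ModularForm.discriminant (ModularForm.heckeDiagMatrix N • z)

theorem discriminant_SL_smul (γ : SL(2, ℤ)) (w : ℍ) :
    ModularForm.discriminant (γ • w) = denom γ w ^ (12 : ℤ) * ModularForm.discriminant w :=
  slash_SL_eq_self_iff.mp
    (SlashInvariantFormClass.slash_action_eq CuspForm.discriminant (γ : GL (Fin 2) ℝ) ⟨γ, rfl⟩) w

theorem discriminant_vAdd_int (b : ℤ) (w : ℍ) :
    ModularForm.discriminant ((b : ℝ) +ᵥ w) = ModularForm.discriminant w :=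
  SlashInvariantForm.vAdd_apply_of_mem_strictPeriods CuspForm.discriminant w
    (show (b : ℝ) ∈ (𝒮ℒ).strictPeriods by
      simpa using AddSubgroup.zsmul_mem _ one_mem_strictPeriods_SL b)

/-- The upper triangular matrix part of `diag(N,1) * γ`, and the resulting formula for the
translate of `Δ(N z)`. -/
theorem exists_translate_scaledDelta {N : ℕ} (hN : N ≠ 0) (γ : SL(2, ℤ)) :
    ∃ a b d : ℤ, 0 < a ∧ 0 < d ∧ a * d = N ∧ ((N : ℤ) ∣ γ 1 0 ↔ a = N) ∧
      ∀ z w : ℍ, (w : ℂ) = ((a : ℂ) * z + b) / d →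
        (scaledDelta N ∣[(12 : ℤ)] γ) z =
          1728 * ((d : ℂ) ^ (12 : ℤ))⁻¹ * ModularForm.discriminant w := by
  let M₀ : ℤ := N * γ 0 0
  have hdet : γ 0 0 * γ 1 1 - γ 0 1 * γ 1 0 = 1 := by
    have := γ.2
    rwa [Matrix.det_fin_two] at this
  let a : ℤ := Int.gcd M₀ (γ 1 0)
  have ha0 : 0 < a := by
    have : Int.gcd M₀ (γ 1 0) ≠ 0 := by
      intro h
      rw [Int.gcd_eq_zero_iff] at h
      rcases mul_eq_zero.mp h.1 with h' | h'
      · exact hN (by exact_mod_cast h')
      · rw [h', h.2] at hdet; simp at hdet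
    exact Int.natCast_pos.mpr (Nat.pos_of_ne_zero this)
  obtain ⟨x, hx⟩ : a ∣ M₀ := Int.gcd_dvd_left _ _
  obtain ⟨y, hy⟩ : a ∣ γ 1 0 := Int.gcd_dvd_right _ _
  let u : ℤ := Int.gcdA M₀ (γ 1 0)
  let v : ℤ := Int.gcdB M₀ (γ 1 0)
  have huv : x * u + y * v = 1 := by
    have h : a = M₀ * u + γ 1 0 * v := Int.gcd_eq_gcd_ab M₀ (γ 1 0)
    rw [hx, hy] at h
    exact mul_left_cancel₀ ha0.ne' (by linear_combination -h)
  let b : ℤ := u * (N * γ 0 1) + v * γ 1 1
  let d : ℤ := -y * (N * γ 0 1) + x * γ 1 1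
  have had : a * d = N := by
    have hx' : (N : ℤ) * γ 0 0 = a * x := hx
    linear_combination (γ 1 1) * (-hx') + ((N : ℤ) * γ 0 1) * hy + (N : ℤ) * hdet
  have hd0 : 0 < d := by
    have : 0 < a * d := had ▸ (by exact_mod_cast Nat.pos_of_ne_zero hN)
    exact pos_of_mul_pos_right this ha0.le
  let δ : SL(2, ℤ) := ⟨!![x, -v; y, u], by rw [Matrix.det_fin_two_of]; linear_combination huv⟩
  refine ⟨a, b, d, ha0, hd0, had, ⟨fun h => ?_, fun h => h ▸ Int.gcd_dvd_right _ _⟩, ?_⟩
  · refine Int.dvd_antisymm ha0.le (by positivity) ⟨d, had.symm⟩ ?_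
    exact Int.dvd_coe_gcd (dvd_mul_right _ _) h
  intro z w hw
  have hdC : (d : ℂ) ≠ 0 := by exact_mod_cast hd0.ne'
  have hx' : (N : ℂ) * (γ 0 0 : ℂ) = a * x := by exact_mod_cast hx
  have hy' : (γ 1 0 : ℂ) = a * y := by exact_mod_cast hy
  have huv' : (x : ℂ) * u + y * v = 1 := by exact_mod_cast huv
  have hb' : (b : ℂ) = u * (N * γ 0 1) + v * γ 1 1 := by simp [b]
  have hd' : (d : ℂ) = -y * (N * γ 0 1) + x * γ 1 1 := by simp [d]
  have hden : ∀ (g : SL(2, ℤ)) (t : ℍ), denom g t = (g 1 0 : ℂ) * t + g 1 1 := by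
    intro g t; simp [denom]
  have hdenom : denom γ z = (d : ℂ) * denom δ w := by
    rw [hden γ, hden δ, hw, show δ 1 0 = y from rfl, show δ 1 1 = u from rfl, hy']
    field_simp
    linear_combination -(y : ℂ) * hb' - (u : ℂ) * hd' - (γ 1 1 : ℂ) * huv'
  have hden0 : denom δ w ≠ 0 := denom_ne_zero _ _
  have hsm : ModularForm.heckeDiagMatrix N • γ • z = δ • w := by
    have hg : (γ 1 0 : ℂ) * z + γ 1 1 ≠ 0 := by
      simpa [denom] using denom_ne_zero (γ : GL (Fin 2) ℝ) z
    apply UpperHalfPlane.ext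
    rw [ModularForm.coe_heckeDiagMatrix_smul hN, UpperHalfPlane.coe_specialLinearGroup_apply,
      UpperHalfPlane.coe_specialLinearGroup_apply]
    simp [δ, hw]
    have hg2 : (y : ℂ) * ((a * z + b) / d) + u ≠ 0 := by
      rwa [hden δ, hw] at hden0
    have hnum : (y : ℂ) * (a * z + b) + d * u ≠ 0 := by
      intro h
      apply hg2
      field_simp
      linear_combination h
    have hg' : (z : ℂ) * γ 1 0 + γ 1 1 ≠ 0 := by rwa [mul_comm]
    field_simp
    rw [eq_div_iff (fun h => hnum (by linear_combination h))]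
    linear_combination
      ((a : ℂ) * x * z + N * γ 0 1) *
          ((y : ℂ) * hb' + (u : ℂ) * hd' + (γ 1 1 : ℂ) * huv') -
        ((a : ℂ) * y * z + γ 1 1) *
          ((x : ℂ) * hb' - (v : ℂ) * hd' + (N : ℂ) * γ 0 1 * huv') +
        (z : ℂ) * ((a : ℂ) * y * z + y * b + d * u) * hx' -
        (z : ℂ) * ((a : ℂ) * x * z + b * x - d * v) * hy'
  rw [ModularForm.SL_slash_apply, scaledDelta, hsm, discriminant_SL_smul, hdenom, zpow_neg,
    mul_zpow]
  field_simp

theorem mdifferentiable_scaledDelta {N : ℕ} : MDiff (scaledDelta N) := by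
  have h : MDiff fun τ : ℍ => ModularForm.discriminant (ModularForm.heckeDiagMatrix N • τ) :=
    CuspForm.discriminant.holo'.comp (mdifferentiable_smul (ModularForm.det_heckeDiagMatrix_pos N))
  exact mdifferentiable_const.mul h

theorem exists_upperHalfPlane_affine {a d : ℤ} (ha : 0 < a) (hd : 0 < d) (b : ℤ) (z : ℍ) :
    ∃ w : ℍ, (w : ℂ) = ((a : ℂ) * z + b) / d ∧ w.im = (a : ℝ) / d * z.im := by
  have him : (((a : ℂ) * z + b) / d).im = (a : ℝ) / d * z.im := by
    rw [Complex.div_intCast_im]; simp; ring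
  exact ⟨⟨_, him ▸ mul_pos (div_pos (Int.cast_pos.mpr ha) (Int.cast_pos.mpr hd)) z.im_pos⟩,
    rfl, him⟩

theorem scaledDelta_slash_of_mem {N : ℕ} (hN : N ≠ 0) {γ : SL(2, ℤ)}
    (hγ : γ ∈ CongruenceSubgroup.Gamma0 N) :
    scaledDelta N ∣[(12 : ℤ)] γ = scaledDelta N := by
  obtain ⟨a, b, d, ha, hd, had, hiff, h⟩ := exists_translate_scaledDelta hN γ
  rw [CongruenceSubgroup.Gamma0_mem, ZMod.intCast_zmod_eq_zero_iff_dvd] at hγ
  obtain rfl := hiff.mp hγ
  obtain rfl : d = 1 := by
    have h0 : (N : ℤ) ≠ 0 := ha.ne'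
    exact mul_left_cancel₀ h0 (had.trans (mul_one _).symm)
  funext z
  obtain ⟨w, hw, -⟩ := exists_upperHalfPlane_affine ha hd b z
  have hw' : w = (b : ℝ) +ᵥ ModularForm.heckeDiagMatrix N • z := by
    apply UpperHalfPlane.ext
    rw [coe_vadd, ModularForm.coe_heckeDiagMatrix_smul hN, hw]
    push_cast; ring
  rw [h z w hw, hw', discriminant_vAdd_int, scaledDelta]
  simp

theorem scaledDelta_slash_isZeroAtImInfty {N : ℕ} (hN : N ≠ 0) (γ : SL(2, ℤ)) :
    IsZeroAtImInfty (scaledDelta N ∣[(12 : ℤ)] γ) := by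
  obtain ⟨a, b, d, ha, hd, -, -, h⟩ := exists_translate_scaledDelta hN γ
  choose w hw him using exists_upperHalfPlane_affine ha hd b
  have hlim : Tendsto w atImInfty atImInfty := by
    rw [atImInfty, tendsto_comap_iff]
    simp only [comp_def, him]
    exact tendsto_comap.const_mul_atTop (div_pos (Int.cast_pos.mpr ha) (Int.cast_pos.mpr hd))
  rw [show scaledDelta N ∣[(12 : ℤ)] γ = fun z => 1728 * ((d : ℂ) ^ (12 : ℤ))⁻¹ *
      ModularForm.discriminant (w z) from funext fun z => h z (w z) (hw z)]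
  simpa [IsZeroAtImInfty, ZeroAtFilter] using
    Tendsto.const_mul (1728 * ((d : ℂ) ^ (12 : ℤ))⁻¹)
      (ModularForm.discriminant_isZeroAtImInfty.comp hlim)

theorem scaledDelta_slash_mem_holBdd {N : ℕ} (hN : N ≠ 0) (γ : SL(2, ℤ)) :
    scaledDelta N ∣[(12 : ℤ)] γ ∈ holBdd :=
  ⟨mdifferentiable_scaledDelta.slash _ _,
    (scaledDelta_slash_isZeroAtImInfty hN γ).isBoundedAtImInfty⟩

theorem tendsto_log_discriminant :
    Tendsto (fun τ : ℍ => Real.log ‖ModularForm.discriminant τ‖ + 2 * π * τ.im) atImInfty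
      (𝓝 0) := by
  have h := ((Real.continuousAt_log (by norm_num : ‖(1 : ℂ)‖ ≠ 0)).tendsto.comp
    (ModularForm.tendsto_atImInfty_tprod_one_sub_eta_q_pow.norm))
  rw [norm_one, Real.log_one] at h
  refine h.congr fun τ => ?_
  have hne := ModularForm.discriminant_ne_zero τ
  rw [ModularForm.discriminant_eq_q_prod, mul_ne_zero_iff] at hne
  rw [comp_apply, ModularForm.discriminant_eq_q_prod, norm_mul,
    Real.log_mul (norm_ne_zero_iff.mpr hne.1) (norm_ne_zero_iff.mpr hne.2),
    Periodic.norm_qParam, Real.log_exp]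
  simp

theorem mem_Gamma0_of_scaledDelta_slash {N : ℕ} (hN : N ≠ 0) {γ : SL(2, ℤ)}
    (hγ : scaledDelta N ∣[(12 : ℤ)] γ = scaledDelta N) :
    γ ∈ CongruenceSubgroup.Gamma0 N := by
  obtain ⟨a, b, d, ha, hd, had, hiff, h⟩ := exists_translate_scaledDelta hN γ
  rw [CongruenceSubgroup.Gamma0_mem, ZMod.intCast_zmod_eq_zero_iff_dvd, hiff]
  choose w hw him using exists_upperHalfPlane_affine ha hd b
  let c : ℝ := Real.log ‖((d : ℂ) ^ (12 : ℤ))⁻¹‖
  let τ : ℝ → ℍ := fun t => ⟨Complex.I * (max t 1 : ℝ), by simp⟩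
  have hτim : ∀ t, (τ t).im = max t 1 := fun t => by simp [τ, UpperHalfPlane.im]
  have hτlim : Tendsto τ atTop atImInfty := by
    rw [atImInfty, tendsto_comap_iff]
    simp only [comp_def, hτim]
    exact tendsto_atTop_mono (fun t => le_max_left t 1) tendsto_id
  have hwlim : Tendsto w atImInfty atImInfty := by
    rw [atImInfty, tendsto_comap_iff]
    simp only [comp_def, him]
    exact tendsto_comap.const_mul_atTop (div_pos (Int.cast_pos.mpr ha) (Int.cast_pos.mpr hd))
  have hNlim : Tendsto (fun z => ModularForm.heckeDiagMatrix N • z) atImInfty atImInfty :=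
    tendsto_smul_atImInfty (by simp [ModularForm.val_heckeDiagMatrix hN])
  have hNim : ∀ z : ℍ, (ModularForm.heckeDiagMatrix N • z).im = N * z.im := fun z => by
    rw [← coe_im, ModularForm.coe_heckeDiagMatrix_smul hN]; simp
  have h1 := (tendsto_log_discriminant.comp hNlim).comp hτlim
  have h2 := ((tendsto_log_discriminant.comp hwlim).comp hτlim).const_add c
  have h3 := h1.sub h2
  rw [add_zero, zero_sub] at h3
  have key : Tendsto (fun t : ℝ => 2 * π * ((N : ℝ) - (a : ℝ) / d) * max t 1) atTop (𝓝 (-c)) := by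
    refine h3.congr fun t => ?_
    have hv := h (τ t) (w (τ t)) (hw _)
    rw [congrFun hγ, scaledDelta, mul_assoc (1728 : ℂ)] at hv
    have hv' := mul_left_cancel₀ (by norm_num : (1728 : ℂ) ≠ 0) hv
    have hd' : ((d : ℂ) ^ (12 : ℤ))⁻¹ ≠ 0 :=
      inv_ne_zero (zpow_ne_zero _ (Int.cast_ne_zero.mpr hd.ne'))
    simp only [comp_apply]
    rw [hv', norm_mul, Real.log_mul (norm_ne_zero_iff.mpr hd')
      (norm_ne_zero_iff.mpr (ModularForm.discriminant_ne_zero _)), hNim, him, hτim]
    ring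
  have key2 : Tendsto (fun _ : ℝ => 2 * π * ((N : ℝ) - (a : ℝ) / d)) atTop (𝓝 (-c - -c)) := by
    refine Tendsto.congr' ?_ ((key.comp (tendsto_atTop_add_const_right atTop 1 tendsto_id)).sub key)
    filter_upwards [eventually_ge_atTop (1 : ℝ)] with t ht
    simp only [comp_apply, id_eq, max_eq_left ht, max_eq_left (ht.trans (le_add_of_nonneg_right
      zero_le_one))]
    ring
  have h0 := tendsto_nhds_unique key2 tendsto_const_nhds
  have hdR : (d : ℝ) ≠ 0 := Int.cast_ne_zero.mpr hd.ne'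
  have hNad : (N : ℝ) * d = a := by
    have := (mul_eq_zero.mp (h0.symm.trans (sub_self _))).resolve_left (by positivity)
    rw [sub_eq_zero, eq_div_iff hdR] at this
    exact this
  have hNad' : (N : ℤ) * d = a := by exact_mod_cast hNad
  have hd1 : d * d = 1 := by
    refine mul_left_cancel₀ (Int.natCast_ne_zero.mpr hN) ?_
    rw [← mul_assoc, hNad', had, mul_one]
  have hd1' : d = 1 := by nlinarith
  rw [← hNad', hd1', mul_one]

theorem scaledDelta_mem_nice {N : ℕ} (hN : N ≠ 0) : scaledDelta N ∈ nice := by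
  have h1 : scaledDelta N ∣[(12 : ℤ)] (1 : SL(2, ℤ)) = scaledDelta N :=
    scaledDelta_slash_of_mem hN (one_mem _)
  exact ⟨h1 ▸ scaledDelta_slash_mem_holBdd hN 1, periodic_of_slash_T (k := 12)
    (scaledDelta_slash_of_mem hN (by simp [CongruenceSubgroup.Gamma0_mem, ModularGroup.coe_T]))⟩

theorem qExpansion_scaledDelta_int {N : ℕ} (hN : N ≠ 0) :
    qExpansion 1 (scaledDelta N) ∈ intSeries ℂ := by
  classical
  have hn := scaledDelta_mem_nice hN
  obtain ⟨P, hP⟩ := qExpansion_discriminant_mul_int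
  refine mem_intSeries_iff.mpr fun m => ⟨if N ∣ m then PowerSeries.coeff (m / N) P else 0, ?_⟩
  let c : ℕ → ℂ := fun j => ((if N ∣ j then PowerSeries.coeff (j / N) P else 0 : ℤ) : ℂ)
  have key : ∀ z : ℍ, HasSum (fun j => c j • Periodic.qParam 1 (z : ℂ) ^ j) (scaledDelta N z) := by
    intro z
    have hD := mem_nice_of_modularForm (k := 12) one_mem_strictPeriods_SL CuspForm.discriminant
    have hs := (hasSum_qExpansion one_pos hD.2 hD.1.1 hD.1.2
      (ModularForm.heckeDiagMatrix N • z)).mul_left 1728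
    have hinj : Injective fun j : ℕ => N * j := fun i j hij =>
      Nat.eq_of_mul_eq_mul_left (Nat.pos_of_ne_zero hN) hij
    have hzero : ∀ j ∉ Set.range fun j : ℕ => N * j, c j • Periodic.qParam 1 (z : ℂ) ^ j = 0 := by
      intro j hj
      have : ¬ N ∣ j := by rintro ⟨i, rfl⟩; exact hj ⟨i, rfl⟩
      simp [c, this]
    refine (hinj.hasSum_iff hzero).mp ?_
    have hq : Periodic.qParam 1 (ModularForm.heckeDiagMatrix N • z : ℍ) =
        Periodic.qParam 1 (z : ℂ) ^ N := by
      rw [ModularForm.coe_heckeDiagMatrix_smul hN]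
      simp only [Periodic.qParam, ← Complex.exp_nat_mul]
      congr 1; push_cast; ring
    have hfun : (fun i => 1728 * ((qExpansion 1 ⇑CuspForm.discriminant).coeff i •
        Periodic.qParam 1 (ModularForm.heckeDiagMatrix N • z : ℍ) ^ i)) =
        (fun j => c j • Periodic.qParam 1 (z : ℂ) ^ j) ∘ fun j => N * j := by
      funext j
      have hP' := congrArg (PowerSeries.coeff j) hP
      simp only [PowerSeries.coeff_map, PowerSeries.coeff_smul, eq_intCast, smul_eq_mul] at hP'
      have hc : c (N * j) = ((PowerSeries.coeff j P : ℤ) : ℂ) := by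
        simp [c, Nat.mul_div_cancel_left _ (Nat.pos_of_ne_zero hN)]
      rw [comp_apply, hc, hP', hq, ← pow_mul, CuspForm.coe_discriminant, smul_eq_mul, smul_eq_mul]
      ring
    rw [← hfun, scaledDelta, ← CuspForm.coe_discriminant]
    exact hs
  have han : AnalyticAt ℂ (cuspFunction 1 (scaledDelta N)) 0 := nice_analyticAt ⟨_, hn⟩
  have h1 := (hasFPowerSeriesOnBall_cuspFunction one_pos han key).hasFPowerSeriesAt
  have h2 := congrArg (fun p => FormalMultilinearSeries.coeff p m)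
    (h1.eq_formalMultilinearSeries han.hasFPowerSeriesAt)
  simp only [FormalMultilinearSeries.coeff_ofScalars] at h2
  simp only [qExpansion_coeff]
  show _ = c m
  rw [h2]
  ring

end Fermat.Agent.Integral
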