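import Mathlib.Analysis.Complex.RemovableSingularity
import Mathlib.Analysis.Analytic.IsolatedZeros
import Mathlib.Analysis.Complex.CauchyIntegral
import Mathlib.Analysis.Complex.UpperHalfPlane.Manifold
import Fermat.Agent.Integral.Nice

/-!
# A quotient integral over holomorphic functions is holomorphic
-/

set_option autoImplicit false

noncomputable section

open UpperHalfPlane hiding I
open Function Filter Set
open scoped Manifold Topology

namespace Fermat.Agent.Integral

theorem norm_lt_of_root {n : ℕ} {c : ℕ → ℂ} {r : ℂ}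
    (hr : r ^ n + ∑ i ∈ Finset.range n, c i * r ^ i = 0) {ε : ℝ} (hε : 0 < ε)
    (hsmall : ∑ i ∈ Finset.range n, ‖c i‖ / ε ^ (n - i) < 1) : ‖r‖ < ε := by
  by_contra! hle
  have hrpos : 0 < ‖r‖ := hε.trans_le hle
  have h1 : ‖r‖ ^ n ≤ ∑ i ∈ Finset.range n, ‖c i‖ * ‖r‖ ^ i := by
    rw [← norm_pow, eq_neg_of_add_eq_zero_left hr, norm_neg]
    exact (norm_sum_le _ _).trans (Finset.sum_le_sum fun i _ => by rw [norm_mul, norm_pow])
  have h2 : ∑ i ∈ Finset.range n, ‖c i‖ * ‖r‖ ^ i ≤
      (∑ i ∈ Finset.range n, ‖c i‖ / ε ^ (n - i)) * ‖r‖ ^ n := by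
    rw [Finset.sum_mul]
    refine Finset.sum_le_sum fun i hi => ?_
    rw [Finset.mem_range] at hi
    have : ε ^ (n - i) * ‖r‖ ^ i ≤ ‖r‖ ^ n := by
      calc ε ^ (n - i) * ‖r‖ ^ i ≤ ‖r‖ ^ (n - i) * ‖r‖ ^ i := by gcongr
        _ = ‖r‖ ^ n := by rw [← pow_add, Nat.sub_add_cancel hi.le]
    rw [div_mul_eq_mul_div, le_div_iff₀ (pow_pos hε _), mul_assoc, mul_comm (‖r‖ ^ i)]
    exact mul_le_mul_of_nonneg_left this (norm_nonneg _)
  have h3 := (h1.trans h2).trans_lt (mul_lt_mul_of_pos_right hsmall (pow_pos hrpos n))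
  simp at h3

theorem norm_lt_bound_of_root {n : ℕ} {c : ℕ → ℂ} {r : ℂ}
    (hr : r ^ n + ∑ i ∈ Finset.range n, c i * r ^ i = 0) :
    ‖r‖ < 1 + ∑ i ∈ Finset.range n, ‖c i‖ := by
  set K : ℝ := 1 + ∑ i ∈ Finset.range n, ‖c i‖ with hK
  have hS : 0 ≤ ∑ i ∈ Finset.range n, ‖c i‖ := Finset.sum_nonneg fun i _ => norm_nonneg _
  have hK1 : 1 ≤ K := by rw [hK]; linarith
  refine norm_lt_of_root hr (by linarith) ?_
  calc ∑ i ∈ Finset.range n, ‖c i‖ / K ^ (n - i)
      ≤ ∑ i ∈ Finset.range n, ‖c i‖ / K := by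
        refine Finset.sum_le_sum fun i hi => ?_
        rw [Finset.mem_range] at hi
        exact div_le_div_of_nonneg_left (norm_nonneg _) (by linarith)
          (le_self_pow₀ hK1 (by omega))
    _ < 1 := by
        rw [← Finset.sum_div, div_lt_one (by linarith), hK]
        linarith

theorem root_div_of_relation {n : ℕ} {c : ℕ → ℂ} {H D : ℂ} (hD : D ≠ 0)
    (h : H ^ n + ∑ i ∈ Finset.range n, c i * H ^ i * D ^ (n - i) = 0) :
    (H / D) ^ n + ∑ i ∈ Finset.range n, c i * (H / D) ^ i = 0 := by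
  apply mul_right_cancel₀ (pow_ne_zero n hD)
  rw [zero_mul, add_mul, Finset.sum_mul, ← mul_pow, div_mul_cancel₀ _ hD]
  refine Eq.trans ?_ h
  congr 1
  refine Finset.sum_congr rfl fun i hi => ?_
  rw [Finset.mem_range] at hi
  calc c i * (H / D) ^ i * D ^ n = c i * (H / D) ^ i * (D ^ i * D ^ (n - i)) := by
        rw [← pow_add, Nat.add_sub_cancel' hi.le]
    _ = c i * ((H / D) * D) ^ i * D ^ (n - i) := by ring
    _ = _ := by rw [div_mul_cancel₀ _ hD]

/-- If `H` satisfies a monic equation relative to `D`, then `H / D` extends holomorphically. -/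
theorem exists_mdifferentiable_quotient {n : ℕ} (hn : 0 < n) {H D : ℍ → ℂ} {c : ℕ → ℍ → ℂ}
    (hH : MDiff H) (hD : MDiff D) (hc : ∀ i, MDiff (c i)) (hD0 : D ≠ 0)
    (hrel : ∀ z, H z ^ n + ∑ i ∈ Finset.range n, c i z * H z ^ i * D z ^ (n - i) = 0) :
    ∃ h : ℍ → ℂ, MDiff h ∧ ∀ z, h z * D z = H z := by
  classical
  let H' := H ∘ ofComplex
  let D' := D ∘ ofComplex
  let U : Set ℂ := upperHalfPlaneSet
  have hHd : DifferentiableOn ℂ H' U := UpperHalfPlane.mdifferentiable_iff.mp hH
  have hDd : DifferentiableOn ℂ D' U := UpperHalfPlane.mdifferentiable_iff.mp hD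
  have hUo : IsOpen U := isOpen_upperHalfPlaneSet
  have hDa : AnalyticOnNhd ℂ D' U := hDd.analyticOnNhd hUo
  have hUc : IsPreconnected U := (convex_halfSpace_im_gt 0).isPreconnected
  let g : ℂ → ℂ := fun w =>
    if D' w ≠ 0 then H' w / D' w else limUnder (𝓝[≠] w) fun x => H' x / D' x
  have hg : DifferentiableOn ℂ g U := by
    intro w hw
    refine DifferentiableAt.differentiableWithinAt ?_
    have hUn : U ∈ 𝓝 w := hUo.mem_nhds hw
    rcases (hDa w hw).eventually_eq_zero_or_eventually_ne_zero with hz | hne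
    · refine absurd (funext fun z => ?_) hD0
      have := hDa.eqOn_zero_of_preconnected_of_eventuallyEq_zero hUc hw hz (z.im_pos : (z : ℂ) ∈ U)
      simpa [D'] using this
    · by_cases h0 : D' w = 0
      swap
      · have hev : ∀ᶠ x in 𝓝 w, D' x ≠ 0 :=
          (hDd.differentiableAt hUn).continuousAt.eventually_ne h0
        refine (((hHd.differentiableAt hUn).div (hDd.differentiableAt hUn) h0)).congr_of_eventuallyEq ?_
        filter_upwards [hev] with x hx
        simp [g, hx]
      · let B : ℂ → ℝ := fun x => 1 + ∑ i ∈ Finset.range n, ‖c i (ofComplex x)‖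
        have hBc : ContinuousAt B w := by
          refine continuousAt_const.add (tendsto_finsetSum _ fun i _ => ?_)
          exact ((UpperHalfPlane.mdifferentiable_iff.mp (hc i)).differentiableAt hUn).continuousAt.norm
        have hev : ∀ᶠ x in 𝓝 w, x ∈ U ∧ B x < B w + 1 ∧ (x ≠ w → D' x ≠ 0) :=
          hUn |> fun h => Filter.Eventually.and (h : ∀ᶠ x in 𝓝 w, x ∈ U)
            ((hBc.eventually_lt continuousAt_const (lt_add_one _)).and
              (eventually_nhdsWithin_iff.mp hne))
        obtain ⟨s, hs, hso, hws⟩ := eventually_nhds_iff.mp hev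
        have hsn : s ∈ 𝓝 w := hso.mem_nhds hws
        have hd : DifferentiableOn ℂ (fun x => H' x / D' x) (s \ {w}) := fun x hx =>
          (((hHd x (hs x hx.1).1).div (hDd x (hs x hx.1).1) ((hs x hx.1).2.2 hx.2))).mono
            fun y hy => (hs y hy.1).1
        have hb : BddAbove (norm ∘ (fun x => H' x / D' x) '' (s \ {w})) := by
          refine ⟨B w + 1, ?_⟩
          rintro _ ⟨x, hx, rfl⟩
          exact ((norm_lt_bound_of_root (root_div_of_relation ((hs x hx.1).2.2 hx.2)
            (hrel (ofComplex x)))).trans (hs x hx.1).2.1).le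
        have hu := Complex.differentiableOn_update_limUnder_of_bddAbove hsn hd hb
        refine (hu.differentiableAt hsn).congr_of_eventuallyEq ?_
        filter_upwards [hsn] with x hx
        by_cases hxw : x = w
        · subst hxw; simp [g, h0]
        · simp [g, (hs x hx).2.2 hxw, update_of_ne hxw]
  refine ⟨fun z => g z, ?_, fun z => ?_⟩
  · rw [UpperHalfPlane.mdifferentiable_iff]
    refine hg.congr fun x hx => ?_
    simp [ofComplex_apply_of_im_pos hx]
  · by_cases h0 : D z = 0
    · have h := hrel z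
      rw [Finset.sum_eq_zero fun i hi => by
        rw [h0, zero_pow (by rw [Finset.mem_range] at hi; omega), mul_zero], add_zero] at h
      rw [h0, mul_zero, eq_zero_of_pow_eq_zero h]
    · simp [g, D', H', h0]

end Fermat.Agent.Integral
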