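import Fermat.Agent.Integral.Symmetric
import Fermat.Agent.Integral.Quotient
import Fermat.Prelude.Thm_CongruenceSubgroup_one_mem_strictPeriods_Gamma0

/-!
# Field endomorphisms act on cusp forms through their coefficients
-/

set_option autoImplicit false

noncomputable section

open UpperHalfPlane hiding I
open Function Filter
open scoped Manifold MatrixGroups ModularForm Topology PowerSeries

namespace Fermat.Agent.Integral

variable {N : ℕ} [NeZero N] {k : ℤ}

theorem cuspForm_slash_isZeroAtImInfty (f : CuspForm (CongruenceSubgroup.Gamma0 N) k)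
    (γ : SL(2, ℤ)) : IsZeroAtImInfty ((f : ℍ → ℂ) ∣[k] γ) := by
  have hc : IsCusp ((γ : GL (Fin 2) ℝ) • OnePoint.infty)
      (CongruenceSubgroup.Gamma0 N : Subgroup (GL (Fin 2) ℝ)) := by
    rw [Subgroup.IsArithmetic.isCusp_iff_isCusp_SL2Z, isCusp_SL2Z_iff']
    exact ⟨γ, rfl⟩
  exact f.zero_at_cusps' hc (γ : GL (Fin 2) ℝ) rfl

/-- A cusp form as a `LevelFun`. -/
def cuspLevelFun (f : CuspForm (CongruenceSubgroup.Gamma0 N) k) : LevelFun N k where
  toFun := f
  slash_eq γ hγ := SlashInvariantFormClass.slash_action_eq f (γ : GL (Fin 2) ℝ)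
    (Subgroup.mem_map_of_mem _ hγ)
  mem_holBdd γ := ⟨(CuspFormClass.holo f).slash _ _,
    (cuspForm_slash_isZeroAtImInfty f γ).isBoundedAtImInfty⟩

theorem cuspForm_mem_nice (f : CuspForm (CongruenceSubgroup.Gamma0 N) k) : (f : ℍ → ℂ) ∈ nice :=
  mem_nice_of_modularForm (CongruenceSubgroup.one_mem_strictPeriods_Gamma0 N) f

theorem levelOne_mem_nice {w : ℤ} (g : ModularForm 𝒮ℒ w) : (g : ℍ → ℂ) ∈ nice :=
  mem_nice_of_modularForm one_mem_strictPeriods_SL g

/-- A level one form as an element of `nice`. -/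
def toNice {w : ℤ} (g : ModularForm 𝒮ℒ w) : nice := ⟨g, levelOne_mem_nice g⟩

/-- `1728 Δ(N z)` as an element of `nice`. -/
def deltaNice (N : ℕ) [NeZero N] : nice := ⟨scaledDelta N, scaledDelta_mem_nice (NeZero.ne N)⟩

/-- `∑ g_i (1728 Δ(N z)) ^ i`. -/
def deltaPoly (N : ℕ) [NeZero N] {w : ℕ → ℤ} (g : ∀ i, ModularForm 𝒮ℒ (w i)) : nice :=
  ∑ i ∈ Finset.range (index N), toNice (g i) * deltaNice N ^ i

theorem coe_deltaPoly {w : ℕ → ℤ} (g : ∀ i, ModularForm 𝒮ℒ (w i)) :
    (deltaPoly N g : ℍ → ℂ) =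
      ∑ i ∈ Finset.range (index N), ⇑(g i) * scaledDelta N ^ i := by
  rw [deltaPoly, AddSubmonoidClass.coe_finsetSum]
  rfl

theorem deltaPoly_smul {w₀ : ℤ} {w : ℕ → ℤ} (g : ∀ i, ModularForm 𝒮ℒ (w i))
    (hw : ∀ i, w i = w₀ + 12 * ((index N : ℤ) - 1 - i)) {γ : SL(2, ℤ)}
    (hγ : γ ∈ CongruenceSubgroup.Gamma0 N) (z : ℍ) :
    (deltaPoly N g : ℍ → ℂ) (γ • z) =
      denom γ z ^ (w₀ + 12 * ((index N : ℤ) - 1)) * (deltaPoly N g : ℍ → ℂ) z := by
  simp only [coe_deltaPoly, Finset.sum_apply, Pi.mul_apply, Pi.pow_apply, Finset.mul_sum]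
  refine Finset.sum_congr rfl fun i _ => ?_
  rw [slash_SL_eq_self_iff.mp (scaledDelta_slash_of_mem (NeZero.ne N) hγ) z,
    slash_SL_eq_self_iff.mp
      (SlashInvariantFormClass.slash_action_eq (g i) (γ : GL (Fin 2) ℝ) ⟨γ, rfl⟩) z]
  generalize g i z = x
  rw [hw, mul_pow, ← zpow_natCast (_ ^ (12 : ℤ)) i, ← zpow_mul]
  rw [show w₀ + 12 * ((index N : ℤ) - 1) =
    (w₀ + 12 * ((index N : ℤ) - 1 - i)) + 12 * (i : ℤ) by ring,
    zpow_add₀ (denom_ne_zero _ z) (w₀ + 12 * ((index N : ℤ) - 1 - i)) (12 * (i : ℤ))]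
  ring

theorem qExp_deltaPoly {w : ℕ → ℤ} (g : ∀ i, ModularForm 𝒮ℒ (w i)) :
    qExp (deltaPoly N g) = ∑ i ∈ Finset.range (index N),
      qExpansion 1 (g i) * qExpansion 1 (scaledDelta N) ^ i := by
  simp only [deltaPoly, map_sum, map_mul, map_pow]
  rfl

/-- The denominator `∏ (F - F_r)` written in level one forms. -/
abbrev denomForm (N : ℕ) [NeZero N] (i : ℕ) := interpForm (oneFun N) (deltaFun N) i

theorem deltaPoly_denomForm_ne_zero : deltaPoly N (denomForm N) ≠ 0 := by
  intro h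
  apply deltaFun_prod_ne_zero (N := N)
  have h2 := interpForm_relation (oneFun N) (deltaFun N)
  rw [show (oneFun N).toFun = 1 from rfl, one_mul] at h2
  rw [← h2]
  exact (coe_deltaPoly (denomForm N)).symm.trans (congrArg Subtype.val h)

theorem deltaPoly_interp (f : LevelFun N k) (hf : f.toFun ∈ nice) :
    deltaPoly N (interpForm f (deltaFun N)) = ⟨f.toFun, hf⟩ * deltaPoly N (denomForm N) := by
  apply Subtype.ext
  have h1 := interpForm_relation f (deltaFun N)
  have h2 := interpForm_relation (oneFun N) (deltaFun N)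
  rw [show (oneFun N).toFun = 1 from rfl, one_mul] at h2
  rw [MulMemClass.coe_mul, coe_deltaPoly, coe_deltaPoly]
  rw [← h2] at h1
  exact h1

theorem charForm_relation_nice (f : LevelFun N k) (hf : f.toFun ∈ nice) :
    (⟨f.toFun, hf⟩ : nice) ^ index N +
      ∑ i ∈ Finset.range (index N), toNice (charForm f i) * (⟨f.toFun, hf⟩ : nice) ^ i = 0 := by
  apply Subtype.ext
  rw [AddMemClass.coe_add, AddSubmonoidClass.coe_finsetSum, ZeroMemClass.coe_zero]
  exact charForm_relation f

/-- Coefficientwise application of a field endomorphism preserves cusp forms on `Γ₀(N)`. -/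
theorem exists_cuspForm_conj (σ : ℂ →+* ℂ) (f : CuspForm (CongruenceSubgroup.Gamma0 N) k) :
    ∃ g : CuspForm (CongruenceSubgroup.Gamma0 N) k,
      qExpansion 1 g = PowerSeries.map σ (qExpansion 1 f) := by
  set n := index N with hn
  let lf := cuspLevelFun f
  have hfn : lf.toFun ∈ nice := cuspForm_mem_nice f
  choose c hc using fun i => exists_levelOne_conj σ (charForm lf i)
  choose W hW using fun i => exists_levelOne_conj σ (interpForm lf (deltaFun N) i)
  choose V hV using fun i => exists_levelOne_conj σ (denomForm N i)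
  let s := PowerSeries.map σ
  let fh : ℂ⟦X⟧ := s (qExpansion 1 f)
  have hF : s (qExpansion 1 (scaledDelta N)) = qExpansion 1 (scaledDelta N) := by
    obtain ⟨P, hP⟩ := qExpansion_scaledDelta_int (NeZero.ne N)
    rw [← hP]
    ext m; simp [s]
  have hs : ∀ {w : ℕ → ℤ} (g g' : ∀ i, ModularForm 𝒮ℒ (w i)),
      (∀ i, qExpansion 1 (g' i) = s (qExpansion 1 (g i))) →
        qExp (deltaPoly N g') = s (qExp (deltaPoly N g)) := fun g g' h => by
    simp only [qExp_deltaPoly, map_sum, map_mul, map_pow, hF, h]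
  set H := deltaPoly N W with hHdef
  set D := deltaPoly N V with hDdef
  have hD : qExp D = s (qExp (deltaPoly N (denomForm N))) := hs _ _ hV
  have hH : qExp H = fh * qExp D := by
    rw [hD, hs _ _ hW, deltaPoly_interp lf hfn, map_mul, map_mul]
    rfl
  have hD0 : D ≠ 0 := fun h => by
    rw [h, map_zero, eq_comm, map_eq_zero_iff _ (PowerSeries.map_injective σ σ.injective),
      map_eq_zero_iff _ qExp_injective] at hD
    exact deltaPoly_denomForm_ne_zero hD
  have hcrel : fh ^ n + ∑ i ∈ Finset.range n, qExpansion 1 (c i) * fh ^ i = 0 := by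
    have h := congrArg (fun p => s (qExp p)) (charForm_relation_nice lf hfn)
    simp only [map_add, map_pow, map_sum, map_mul, map_zero, ← hn] at h
    simp only [hc]
    exact h
  have hrel : H ^ n + ∑ i ∈ Finset.range n, toNice (c i) * H ^ i * D ^ (n - i) = 0 := by
    apply qExp_injective
    simp only [map_add, map_pow, map_sum, map_mul, map_zero, hH]
    have h := congrArg (fun p => p * qExp D ^ n) hcrel
    simp only [zero_mul, add_mul, Finset.sum_mul, ← mul_pow] at h
    refine Eq.trans ?_ h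
    congr 1
    refine Finset.sum_congr rfl fun i hi => ?_
    rw [Finset.mem_range] at hi
    calc qExp (toNice (c i)) * (fh * qExp D) ^ i * qExp D ^ (n - i)
        = qExp (toNice (c i)) * fh ^ i * (qExp D ^ i * qExp D ^ (n - i)) := by ring
      _ = _ := by rw [← pow_add, Nat.add_sub_cancel' hi.le]; rfl
  have hrelz : ∀ z, (H : ℍ → ℂ) z ^ n +
      ∑ i ∈ Finset.range n, c i z * (H : ℍ → ℂ) z ^ i * (D : ℍ → ℂ) z ^ (n - i) = 0 := by
    intro z
    have h := congrArg (fun p : nice => (p : ℍ → ℂ) z) hrel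
    simpa [AddSubmonoidClass.coe_finsetSum, toNice, Finset.sum_apply] using h
  have hDf : (D : ℍ → ℂ) ≠ 0 := fun h => hD0 (Subtype.ext h)
  obtain ⟨h, hhol, hhD⟩ := exists_mdifferentiable_quotient (c := fun i => ⇑(c i)) index_pos
    H.2.1.1 D.2.1.1 (fun i => (c i).holo') hDf hrelz
  have cancel : ∀ e : ℍ → ℂ, MDiff e → (∀ z, e z * (D : ℍ → ℂ) z = 0) → e = 0 := fun e he h0 =>
    ((UpperHalfPlane.mul_eq_zero_iff he D.2.1.1).mp (funext h0)).resolve_right hDf
  have hroot : ∀ z, h z ^ n + ∑ i ∈ Finset.range n, c i z * h z ^ i = 0 := by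
    refine fun z => congrFun (cancel
      (fun z => h z ^ n + ∑ i ∈ Finset.range n, c i z * h z ^ i) ?_ fun z => ?_) z
    · have : (fun z => h z ^ n + ∑ i ∈ Finset.range n, c i z * h z ^ i) =
          h ^ n + ∑ i ∈ Finset.range n, ⇑(c i) * h ^ i := by
        funext z; simp [Finset.sum_apply]
      rw [this]
      exact (hhol.pow n).add (.sum fun i _ => (c i).holo'.mul (hhol.pow i))
    · by_cases hz : (D : ℍ → ℂ) z = 0
      · rw [hz, mul_zero]
      · have := root_div_of_relation (c := fun i => c i z) hz (hrelz z)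
        rw [← hhD z, mul_div_cancel_right₀ _ hz] at this
        rw [this, zero_mul]
  have hinv : ∀ γ ∈ CongruenceSubgroup.Gamma0 N, h ∣[k] γ = h := by
    intro γ hγ
    rw [← sub_eq_zero]
    refine cancel _ ((hhol.slash _ _).sub hhol) fun z => ?_
    have hu := denom_ne_zero (γ : GL (Fin 2) ℝ) z
    have h1 := deltaPoly_smul (w₀ := k) W (fun i => rfl) hγ z
    have h2 := deltaPoly_smul (w₀ := 0) V (fun i => rfl) hγ z
    rw [← hHdef, ← hhD, ← hhD] at h1
    rw [← hDdef] at h2
    rw [h2, zero_add, zpow_add₀ hu] at h1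
    rw [Pi.sub_apply, sub_mul, ModularForm.SL_slash_apply, zpow_neg, sub_eq_zero]
    have h3 : h (γ • z) * (D : ℍ → ℂ) z = denom γ z ^ k * (h z * (D : ℍ → ℂ) z) :=
      mul_left_cancel₀ (zpow_ne_zero (12 * ((index N : ℤ) - 1)) hu) (by linear_combination h1)
    rw [mul_comm (h (γ • z)), mul_assoc, h3, inv_mul_cancel_left₀ (zpow_ne_zero k hu)]
  have hzero : ∀ γ : SL(2, ℤ), IsZeroAtImInfty (h ∣[k] γ) := by
    intro γ
    have hcz : ∀ i ∈ Finset.range n, IsZeroAtImInfty ⇑(c i) := fun i hi => by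
      refine isZeroAtImInfty_of_coeff_zero (levelOne_mem_nice _) ?_
      rw [hc, PowerSeries.coeff_map, coeff_zero_of_isZeroAtImInfty (levelOne_mem_nice _)
        (charForm_isZeroAtImInfty lf (cuspForm_slash_isZeroAtImInfty f) (Finset.mem_range.mp hi)),
        map_zero]
    rw [IsZeroAtImInfty, ZeroAtFilter, Metric.tendsto_nhds]
    intro ε hε
    have hlim : Tendsto (fun z => ∑ i ∈ Finset.range n, ‖c i z‖ / ε ^ (n - i)) atImInfty (𝓝 0) := by
      rw [show (0 : ℝ) = ∑ i ∈ Finset.range n, (0 : ℝ) / ε ^ (n - i) by simp]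
      exact tendsto_finsetSum _ fun i hi => by
        simpa using (tendsto_norm_zero.comp (hcz i hi)).div_const (ε ^ (n - i))
    filter_upwards [hlim.eventually (gt_mem_nhds (zero_lt_one' ℝ))] with z hz
    rw [dist_zero_right]
    refine norm_lt_of_root ?_ hε hz
    -- translate the equation at `γ • z`
    have hu := denom_ne_zero (γ : GL (Fin 2) ℝ) z
    have hr := hroot (γ • z)
    have hci : ∀ i, c i (γ • z) = denom γ z ^ (k * ((n : ℤ) - i)) * c i z := fun i =>
      slash_SL_eq_self_iff.mp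
        (SlashInvariantFormClass.slash_action_eq (c i) (γ : GL (Fin 2) ℝ) ⟨γ, rfl⟩) z
    rw [ModularForm.SL_slash_apply, zpow_neg]
    apply mul_right_cancel₀ (pow_ne_zero n (zpow_ne_zero k hu))
    rw [zero_mul, add_mul, Finset.sum_mul, ← mul_pow, mul_assoc,
      inv_mul_cancel₀ (zpow_ne_zero k hu), mul_one]
    refine Eq.trans ?_ hr
    congr 1
    refine Finset.sum_congr rfl fun i hi => ?_
    rw [hci]
    generalize c i z = x
    rw [mul_sub, zpow_sub₀ hu, zpow_mul, zpow_mul, zpow_natCast, zpow_natCast, mul_pow,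
      inv_pow, div_eq_mul_inv]
    ring
  refine ⟨{ toFun := h
            slash_action_eq' := ?_
            holo' := hhol
            zero_at_cusps' := ?_ }, ?_⟩
  · rintro _ ⟨γ, hγ, rfl⟩
    exact hinv γ hγ
  · intro cu hcu
    rw [Subgroup.IsArithmetic.isCusp_iff_isCusp_SL2Z] at hcu
    rw [OnePoint.isZeroAt_iff_forall_SL2Z hcu]
    exact fun γ _ => hzero γ
  · have hper : Periodic (h ∘ ofComplex) (1 : ℝ) :=
      periodic_of_slash_T (hinv _ (by simp [CongruenceSubgroup.Gamma0_mem, ModularGroup.coe_T]))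
    have h1 : IsZeroAtImInfty h := by simpa using hzero 1
    have hnice : h ∈ nice := ⟨⟨hhol, h1.isBoundedAtImInfty⟩, hper⟩
    show qExp ⟨h, hnice⟩ = fh
    apply mul_right_cancel₀ ((map_ne_zero_iff _ qExp_injective).mpr hD0)
    rw [← map_mul, ← hH]
    exact congrArg qExp (Subtype.ext (funext hhD))

end Fermat.Agent.Integral
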