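import Fermat.Agent.Integral.Scaled

/-!
# Level one forms attached to the translates of a form on `Γ₀(N)`
-/

set_option autoImplicit false

noncomputable section

open UpperHalfPlane hiding I
open Function Filter Polynomial
open scoped Manifold MatrixGroups ModularForm Topology

namespace Fermat.Agent.Integral

variable {N : ℕ} [NeZero N]

/-- The coset space `SL(2, ℤ) / Γ₀(N)`. -/
abbrev Coset (N : ℕ) : Type := SL(2, ℤ) ⧸ CongruenceSubgroup.Gamma0 N

noncomputable scoped instance instFintypeCoset : Fintype (Coset N) := Fintype.ofFinite _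

noncomputable scoped instance instDecEqCoset : DecidableEq (Coset N) := Classical.decEq _

/-- A function invariant under `Γ₀(N)` all of whose translates are holomorphic and bounded
at `i∞`. -/
structure LevelFun (N : ℕ) (k : ℤ) where
  /-- the function -/
  toFun : ℍ → ℂ
  slash_eq : ∀ γ ∈ CongruenceSubgroup.Gamma0 N, toFun ∣[k] γ = toFun
  mem_holBdd : ∀ γ : SL(2, ℤ), toFun ∣[k] γ ∈ holBdd

variable {k : ℤ}

namespace LevelFun

/-- The translate attached to a coset. -/
def tr (f : LevelFun N k) (q : Coset N) : holBdd :=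
  Quotient.liftOn' q (fun g => ⟨f.toFun ∣[k] g⁻¹, f.mem_holBdd _⟩) fun g g' hgg' => by
    rw [QuotientGroup.leftRel_apply] at hgg'
    refine Subtype.ext ?_
    show f.toFun ∣[k] g⁻¹ = f.toFun ∣[k] g'⁻¹
    have h : g'⁻¹ = (g⁻¹ * g')⁻¹ * g⁻¹ := by group
    rw [h, SlashAction.slash_mul, f.slash_eq _ (inv_mem hgg')]

theorem tr_mk (f : LevelFun N k) (g : SL(2, ℤ)) :
    (f.tr (QuotientGroup.mk g) : ℍ → ℂ) = f.toFun ∣[k] g⁻¹ := rfl

/-- The coset of the identity. -/
abbrev base : Coset N := QuotientGroup.mk 1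

theorem tr_base (f : LevelFun N k) : (f.tr base : ℍ → ℂ) = f.toFun := by
  rw [tr_mk, inv_one, SlashAction.slash_one]

theorem tr_smul_apply (f : LevelFun N k) (q : Coset N) (γ : SL(2, ℤ)) (z : ℍ) :
    (f.tr q : ℍ → ℂ) (γ • z) = denom γ z ^ k * (f.tr (γ⁻¹ • q) : ℍ → ℂ) z := by
  induction q using QuotientGroup.induction_on with
  | _ g =>
    rw [MulAction.Quotient.smul_mk, tr_mk, tr_mk, smul_eq_mul, mul_inv_rev, inv_inv,
      SlashAction.slash_mul, ModularForm.SL_slash_apply (f := f.toFun ∣[k] g⁻¹) (γ := γ)]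
    rw [mul_comm, mul_assoc, zpow_neg, inv_mul_cancel₀ (zpow_ne_zero _ (denom_ne_zero _ z)),
      mul_one]

end LevelFun

open LevelFun

/-- Pointwise evaluation on `holBdd`. -/
def evalAt (z : ℍ) : holBdd →+* ℂ :=
  (Pi.evalRingHom (fun _ : ℍ => ℂ) z).comp holBdd.val.toRingHom

theorem evalAt_apply (z : ℍ) (f : holBdd) : evalAt z f = (f : ℍ → ℂ) z := rfl

/-- `∏ (X - f_q)` over the translates `f_q` of `f`. -/
def charPoly (f : LevelFun N k) : holBdd[X] := ∏ q : Coset N, (X - C (f.tr q))

/-- `∑ g_q ∏_{r ≠ q} (X - f_r)` over the translates. -/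
def interpPoly {l : ℤ} (g : LevelFun N l) (f : LevelFun N k) : holBdd[X] :=
  ∑ q : Coset N, C (g.tr q) * ∏ r ∈ Finset.univ.erase q, (X - C (f.tr r))

theorem coeff_eq_of_comp_eq {P Q : ℂ[X]} {a c : ℂ} (ha : a ≠ 0)
    (h : P.comp (C a * X) = C c * Q) (i : ℕ) : P.coeff i = c * (a ^ i)⁻¹ * Q.coeff i := by
  have h1 := congrArg (fun p => Polynomial.coeff p i) h
  simp only [comp_C_mul_X_coeff, coeff_C_mul] at h1
  field_simp
  linear_combination h1

theorem map_charPoly (f : LevelFun N k) (z : ℍ) :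
    (charPoly f).map (evalAt z) = ∏ q : Coset N, (X - C ((f.tr q : ℍ → ℂ) z)) := by
  simp [charPoly, Polynomial.map_prod, evalAt_apply]

theorem map_interpPoly {l : ℤ} (g : LevelFun N l) (f : LevelFun N k) (z : ℍ) :
    (interpPoly g f).map (evalAt z) = ∑ q : Coset N,
      C ((g.tr q : ℍ → ℂ) z) * ∏ r ∈ Finset.univ.erase q, (X - C ((f.tr r : ℍ → ℂ) z)) := by
  simp only [interpPoly, Polynomial.map_sum, Polynomial.map_mul, Polynomial.map_prod,
    Polynomial.map_sub, map_X, map_C, evalAt_apply]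

/-- The number of cosets. -/
abbrev index (N : ℕ) [NeZero N] : ℕ := Fintype.card (Coset N)

theorem index_pos : 0 < index N := Fintype.card_pos

theorem charPoly_coeff_smul (f : LevelFun N k) (γ : SL(2, ℤ)) (z : ℍ) (i : ℕ) :
    evalAt (γ • z) ((charPoly f).coeff i) =
      denom γ z ^ (k * ((index N : ℤ) - i)) * evalAt z ((charPoly f).coeff i) := by
  set u : ℂ := denom γ z with hu
  have hu0 : u ≠ 0 := denom_ne_zero _ z
  have key : ((charPoly f).map (evalAt (γ • z))).comp (C (u ^ k) * X) =
      C ((u ^ k) ^ index N) * (charPoly f).map (evalAt z) := by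
    rw [map_charPoly, map_charPoly, Polynomial.prod_comp, index, ← Finset.card_univ, C_pow,
      ← Finset.prod_const, ← Finset.prod_mul_distrib]
    refine Fintype.prod_equiv (MulAction.toPerm γ⁻¹) _ _ fun q => ?_
    rw [MulAction.toPerm_apply, f.tr_smul_apply, sub_comp, X_comp, C_comp, C_mul, mul_sub]
  have h := coeff_eq_of_comp_eq (zpow_ne_zero _ hu0) key i
  rw [coeff_map, coeff_map] at h
  rw [h, mul_sub, zpow_sub₀ hu0, zpow_mul, zpow_mul, zpow_natCast, zpow_natCast, div_eq_mul_inv]

theorem interpPoly_coeff_smul {l : ℤ} (g : LevelFun N l) (f : LevelFun N k) (γ : SL(2, ℤ))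
    (z : ℍ) (i : ℕ) :
    evalAt (γ • z) ((interpPoly g f).coeff i) =
      denom γ z ^ (l + k * ((index N : ℤ) - 1 - i)) * evalAt z ((interpPoly g f).coeff i) := by
  set u : ℂ := denom γ z with hu
  have hu0 : u ≠ 0 := denom_ne_zero _ z
  have key : ((interpPoly g f).map (evalAt (γ • z))).comp (C (u ^ k) * X) =
      C (u ^ l * (u ^ k) ^ (index N - 1)) * (interpPoly g f).map (evalAt z) := by
    rw [map_interpPoly, map_interpPoly, Polynomial.sum_comp, Finset.mul_sum]
    refine Fintype.sum_equiv (MulAction.toPerm γ⁻¹) _ _ fun q => ?_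
    rw [MulAction.toPerm_apply, mul_comp, C_comp, g.tr_smul_apply, Polynomial.prod_comp,
      show index N - 1 = (Finset.univ.erase q).card by
        rw [Finset.card_erase_of_mem (Finset.mem_univ q), Finset.card_univ]]
    have hp : ∏ r ∈ Finset.univ.erase q, ((X - C ((f.tr r : ℍ → ℂ) (γ • z))).comp (C (u ^ k) * X))
        = C ((u ^ k) ^ (Finset.univ.erase q).card) *
          ∏ r ∈ Finset.univ.erase (γ⁻¹ • q), (X - C ((f.tr r : ℍ → ℂ) z)) := by
      rw [show Finset.univ.erase (γ⁻¹ • q) =
          (Finset.univ.erase q).map (MulAction.toPerm γ⁻¹).toEmbedding by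
        rw [Finset.map_erase, Finset.map_univ_equiv]; rfl, Finset.prod_map, C_pow,
        ← Finset.prod_const, ← Finset.prod_mul_distrib]
      refine Finset.prod_congr rfl fun r _ => ?_
      rw [Equiv.coe_toEmbedding, MulAction.toPerm_apply, f.tr_smul_apply, sub_comp, X_comp,
        C_comp, C_mul, mul_sub]
    rw [hp, C_mul, C_mul]
    ring
  have h := coeff_eq_of_comp_eq (zpow_ne_zero _ hu0) key i
  rw [coeff_map, coeff_map] at h
  have hn : ((index N - 1 : ℕ) : ℤ) = (index N : ℤ) - 1 := by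
    have : 0 < index N := index_pos
    omega
  rw [h, mul_sub, ← add_sub_assoc, zpow_sub₀ hu0, zpow_add₀ hu0, zpow_mul, zpow_mul, ← hn,
    zpow_natCast, zpow_natCast, div_eq_mul_inv]

/-- The level one forms given by the coefficients of `charPoly f`. -/
def charForm (f : LevelFun N k) (i : ℕ) : ModularForm 𝒮ℒ (k * ((index N : ℤ) - i)) :=
  levelOneForm _ ((charPoly f).coeff i : ℍ → ℂ)
    (fun γ => slash_SL_eq_self_iff.mpr fun z => charPoly_coeff_smul f γ z i)
    ((charPoly f).coeff i).2

/-- The level one forms given by the coefficients of `interpPoly g f`. -/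
def interpForm {l : ℤ} (g : LevelFun N l) (f : LevelFun N k) (i : ℕ) :
    ModularForm 𝒮ℒ (l + k * ((index N : ℤ) - 1 - i)) :=
  levelOneForm _ ((interpPoly g f).coeff i : ℍ → ℂ)
    (fun γ => slash_SL_eq_self_iff.mpr fun z => interpPoly_coeff_smul g f γ z i)
    ((interpPoly g f).coeff i).2

theorem coe_charForm (f : LevelFun N k) (i : ℕ) :
    ⇑(charForm f i) = ((charPoly f).coeff i : ℍ → ℂ) := rfl

theorem coe_interpForm {l : ℤ} (g : LevelFun N l) (f : LevelFun N k) (i : ℕ) :
    ⇑(interpForm g f i) = ((interpPoly g f).coeff i : ℍ → ℂ) := rfl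

theorem coeff_prod_X_sub_C_mem {R ι : Type*} [CommRing R] (I : Ideal R) (s : Finset ι) (x : ι → R)
    (hx : ∀ q ∈ s, x q ∈ I) {i : ℕ} (hi : i < s.card) :
    (∏ q ∈ s, (X - C (x q))).coeff i ∈ I := by
  rw [← Ideal.Quotient.eq_zero_iff_mem, ← coeff_map, Polynomial.map_prod,
    Finset.prod_congr rfl (g := fun _ => X) fun q hq => by
      simp [Ideal.Quotient.eq_zero_iff_mem.mpr (hx q hq)]]
  simp [coeff_X_pow, hi.ne]

/-- If all translates vanish at `i∞`, so do the lower coefficients of `charPoly`. -/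
theorem charForm_isZeroAtImInfty (f : LevelFun N k)
    (hf : ∀ γ : SL(2, ℤ), IsZeroAtImInfty (f.toFun ∣[k] γ)) {i : ℕ} (hi : i < index N) :
    IsZeroAtImInfty ⇑(charForm f i) :=
  coeff_prod_X_sub_C_mem zeroIdeal Finset.univ f.tr
    (fun q _ => QuotientGroup.induction_on q fun g => hf g⁻¹) hi

/-- The basic relation `f ^ n + ∑ c_i f ^ i = 0`. -/
theorem charForm_relation (f : LevelFun N k) :
    f.toFun ^ index N + ∑ i ∈ Finset.range (index N), ⇑(charForm f i) * f.toFun ^ i = 0 := by
  funext z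
  have hroot : ((charPoly f).map (evalAt z)).eval (f.toFun z) = 0 := by
    rw [map_charPoly, eval_prod, Finset.prod_eq_zero (Finset.mem_univ (base : Coset N))]
    simp [f.tr_base]
  have hdeg : ((charPoly f).map (evalAt z)).natDegree = index N := by
    rw [map_charPoly, natDegree_finsetProd_X_sub_C_eq_card, Finset.card_univ]
  have hmon : ((charPoly f).map (evalAt z)).Monic := by
    rw [map_charPoly]; exact monic_prod_of_monic _ _ fun q _ => monic_X_sub_C _
  rw [eval_eq_sum_range, hdeg, Finset.sum_range_succ] at hroot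
  have htop : ((charPoly f).map (evalAt z)).coeff (index N) = 1 := hdeg ▸ hmon.coeff_natDegree
  rw [htop, one_mul, add_comm] at hroot
  simp only [Pi.add_apply, Pi.pow_apply, Finset.sum_apply, Pi.mul_apply, Pi.zero_apply]
  simpa [coeff_map, evalAt_apply, coe_charForm] using hroot

/-- The Lagrange interpolation identity. -/
theorem interpForm_relation {l : ℤ} (g : LevelFun N l) (f : LevelFun N k) :
    ∑ i ∈ Finset.range (index N), ⇑(interpForm g f i) * f.toFun ^ i =
      g.toFun * ∏ r ∈ Finset.univ.erase (base : Coset N), (f.toFun - (f.tr r : ℍ → ℂ)) := by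
  funext z
  have hdeg : ((interpPoly g f).map (evalAt z)).natDegree < index N := by
    have h1 : ((interpPoly g f).map (evalAt z)).natDegree ≤ index N - 1 := by
      rw [map_interpPoly]
      refine natDegree_sum_le_of_forall_le _ _ fun q _ => (natDegree_C_mul_le _ _).trans ?_
      rw [natDegree_finsetProd_X_sub_C_eq_card, Finset.card_erase_of_mem (Finset.mem_univ q),
        Finset.card_univ]
    exact h1.trans_lt (Nat.sub_lt index_pos one_pos)
  have h : ((interpPoly g f).map (evalAt z)).eval (f.toFun z) =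
      g.toFun z * ∏ r ∈ Finset.univ.erase (base : Coset N),
        (f.toFun z - (f.tr r : ℍ → ℂ) z) := by
    rw [map_interpPoly, eval_finsetSum, Finset.sum_eq_single (base : Coset N)]
    · simp [eval_prod, g.tr_base]
    · intro q _ hq
      rw [eval_mul, eval_prod, Finset.prod_eq_zero
        (Finset.mem_erase.mpr ⟨hq.symm, Finset.mem_univ _⟩), mul_zero]
      simp [f.tr_base]
    · simp
  rw [eval_eq_sum_range' hdeg] at h
  simpa [Finset.sum_apply, Finset.prod_apply, coeff_map, evalAt_apply, coe_interpForm]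
    using h

/-- `1728 Δ(N z)` as a `LevelFun`. -/
def deltaFun (N : ℕ) [NeZero N] : LevelFun N 12 where
  toFun := scaledDelta N
  slash_eq _ hγ := scaledDelta_slash_of_mem (NeZero.ne N) hγ
  mem_holBdd γ := scaledDelta_slash_mem_holBdd (NeZero.ne N) γ

/-- The constant function one as a `LevelFun`. -/
def oneFun (N : ℕ) [NeZero N] : LevelFun N 0 where
  toFun := 1
  slash_eq γ _ := slash_SL_eq_self_iff.mpr fun z => by simp
  mem_holBdd γ := by
    rw [slash_SL_eq_self_iff.mpr (fun z => by simp : ∀ z : ℍ, (1 : ℍ → ℂ) (γ • z) =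
      denom γ z ^ (0 : ℤ) * (1 : ℍ → ℂ) z)]
    exact one_mem _

/-- The product of the differences of `1728 Δ(N z)` with its other translates. -/
theorem deltaFun_prod_ne_zero :
    (∏ r ∈ Finset.univ.erase (base : Coset N),
      ((deltaFun N).toFun - ((deltaFun N).tr r : ℍ → ℂ))) ≠ 0 := by
  have hF : MDiff (deltaFun N).toFun := mdifferentiable_scaledDelta
  rw [Ne, UpperHalfPlane.prod_eq_zero_iff fun r _ => hF.sub ((deltaFun N).tr r).2.1]
  rintro ⟨r, hr, h⟩
  rw [Finset.mem_erase] at hr
  revert hr h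
  refine QuotientGroup.induction_on r fun g hr h => hr.1 ?_
  rw [(deltaFun N).tr_mk, sub_eq_zero] at h
  have hg := mem_Gamma0_of_scaledDelta_slash (NeZero.ne N) h.symm
  exact QuotientGroup.eq.mpr (by simpa using inv_mem hg)

end Fermat.Agent.Integral
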